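import Fermat.Agent.HerbrandRibet.Character
import Fermat.Agent.ExistenceTheorem.HilbertClassField
import Fermat.Agent.Regular.VandiverUnits
import Mathlib.RepresentationTheory.Homological.GroupCohomology.Hilbert90

/-!
# Reflection

A character of even weight `k` of the class group gives, by Kummer theory in the Hilbert class
field, a class of order `p` of odd weight `p - k`.

Classical.
-/

set_option autoImplicit false
set_option linter.unusedSectionVars false
set_option linter.style.haveILetI false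

noncomputable section

open scoped Classical Pointwise nonZeroDivisors
open NumberField IsDedekindDomain FA.ArtinRec FA.AmbClass
open FA.Ext (sigmaK sigmaU sigmaCl)

namespace FA.HerbrandRibet

section torsionfree

variable {F : Type*} [Field F] [NumberField F] {p : ℕ}

/-- Divisors are torsion free. -/
theorem dvs_pow_inj (hp : p ≠ 0) {a b : Dvs F} (h : a ^ p = b ^ p) : a = b := by
  refine Multiplicative.toAdd.injective (Finsupp.ext fun v => ?_)
  have h1 := DFunLike.congr_fun (congrArg Multiplicative.toAdd h) v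
  simp only [toAdd_pow, Finsupp.smul_apply, nsmul_eq_mul] at h1
  exact mul_left_cancel₀ (Int.natCast_ne_zero.2 hp) h1

/-- An element of orders divisible by `p` is a `p`-th power on divisors. -/
theorem exists_dvs_pow_eq {b : Fˣ} (h : ∀ v : HeightOneSpectrum (𝓞 F), (p : ℤ) ∣ ord v b) :
    ∃ D : Dvs F, D ^ p = ordHom b := by
  refine ⟨Multiplicative.ofAdd (Finsupp.mapRange (fun n : ℤ => n / p) (by simp)
    (Multiplicative.toAdd (ordHom b))), Multiplicative.toAdd.injective (Finsupp.ext fun v => ?_)⟩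
  rw [toAdd_pow, Finsupp.smul_apply, toAdd_ofAdd, Finsupp.mapRange_apply, toAdd_ordHom,
    nsmul_eq_mul, Int.mul_ediv_cancel' (h v)]

end torsionfree

variable {p : ℕ} [hp : Fact p.Prime] {K : Type*} [Field K] [NumberField K]
  [IsCyclotomicExtension {p} ℚ K]

/-- The weight of a character, from ideals to classes. -/
theorem weight_sigmaCl {i : ℕ} {φ : ClassGroup (𝓞 K) →* Multiplicative (ZMod p)}
    (hφ : ∀ (d : (ZMod p)ˣ) (I J : (Ideal (𝓞 K))⁰),
      J.1 = I.1.map (FA.Ext.sigma p K d : 𝓞 K →+* 𝓞 K) →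
      φ (ClassGroup.mk0 J) = φ (ClassGroup.mk0 I) ^ ((d : ZMod p) ^ i).val)
    (d : (ZMod p)ˣ) (C : ClassGroup (𝓞 K)) :
    φ (sigmaCl p K d C) = φ C ^ ((d : ZMod p) ^ i).val := by
  obtain ⟨I, rfl⟩ := ClassGroup.mk0_surjective C
  have hJ : I.1.map (FA.Ext.sigma p K d : 𝓞 K →+* 𝓞 K) ∈ (Ideal (𝓞 K))⁰ :=
    mem_nonZeroDivisors_iff_ne_zero.mpr fun h => nonZeroDivisors.coe_ne_zero I
      ((Ideal.map_eq_bot_iff_of_injective (FA.Ext.sigma p K d).injective).mp h)
  rw [FA.Ext.sigmaCl_mk0 p K d I ⟨_, hJ⟩ rfl]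
  exact hφ d I _ rfl

/-- `ζ ^ m` is a `p`-th power only if `p ∣ m`. -/
theorem dvd_of_zet_pow_eq_pow (hp2 : p ≠ 2) {m : ℕ} {z : Kˣ}
    (h : (z : K) ^ p = zet p K ^ m) : p ∣ m := by
  haveI : NeZero p := ⟨hp.out.ne_zero⟩
  have hfin : IsOfFinOrder (z : K) := isOfFinOrder_iff_pow_eq_one.2 ⟨p * p,
    mul_pos hp.out.pos hp.out.pos,
    by rw [pow_mul, h, pow_right_comm, (zet_spec p K).pow_eq_one, one_pow]⟩
  obtain ⟨r, hr⟩ :=
    (zet_spec p K).exists_neg_pow_of_isOfFinOrder (hp.out.odd_of_ne_two hp2) hfin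
  have h1 : zet p K ^ (m * 2) = 1 := by
    rw [pow_mul, ← h, hr, ← pow_mul, ← pow_mul, show r * (p * 2) = 2 * (p * r) by ring, pow_mul,
      neg_sq, ← pow_mul, show 2 * (p * r) = p * (2 * r) by ring, pow_mul,
      (zet_spec p K).pow_eq_one, one_pow]
  exact ((Nat.coprime_primes hp.out Nat.prime_two).2 hp2).dvd_of_dvd_mul_right
    ((zet_spec p K).dvd_of_pow_eq_one _ h1)

/-- A unit of odd weight `i ≠ 1` times a `p`-th power is a `p`-th power. -/
theorem eq_pow_of_unit_eigen (h5 : 5 ≤ p) {i : ℕ} (hi : Odd i) (hi3 : 3 ≤ i) (hip : i ≤ p - 2)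
    {b y : Kˣ} {U : (𝓞 K)ˣ} (hU : b = intUnits U * y ^ p)
    (hb : ∀ d : (ZMod p)ˣ, ∃ w : Kˣ,
      galU (sigmaK p K d) b = b ^ ((d : ZMod p) ^ i).val * w ^ p) :
    ∃ w : Kˣ, b = w ^ p := by
  haveI : NeZero p := ⟨hp.out.ne_zero⟩
  have hUeig : ∀ d : (ZMod p)ˣ, ∃ w : (𝓞 K)ˣ,
      sigmaU p K d U = U ^ ((d : ZMod p) ^ i).val * w ^ p := by
    intro d
    obtain ⟨w, hw⟩ := hb d
    set c := ((d : ZMod p) ^ i).val
    have hσU : galU (sigmaK p K d) (intUnits U) = intUnits (sigmaU p K d U) := Units.ext rfl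
    rw [hU, map_mul, map_pow, hσU] at hw
    set W := y ^ c * w / galU (sigmaK p K d) y with hW
    have hWp : intUnits (sigmaU p K d U) = intUnits U ^ c * W ^ p := by
      rw [hW, div_pow, mul_div_assoc', eq_div_iff_mul_eq', hw]
      simp only [mul_pow, ← pow_mul, mul_comm p c]
      simp only [mul_comm, mul_assoc]
    have hW0 : ∀ v : HeightOneSpectrum (𝓞 K), ord v W = 0 := fun v => by
      have h1 := congrArg (ord v) hWp
      rw [ord_mul, ord_pow, ord_pow, ord_intUnits, ord_intUnits, mul_zero, zero_add,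
        eq_comm, mul_eq_zero] at h1
      exact h1.resolve_left (Int.natCast_ne_zero.2 hp.out.ne_zero)
    obtain ⟨W', hW'⟩ := exists_intUnits_eq hW0
    refine ⟨W', intUnits_injective ?_⟩
    rw [map_mul, map_pow, map_pow, hW', hWp]
  obtain ⟨w₀, hw₀⟩ := FA.Regular.unitProj_eigen p K hUeig
  have hmem : U ∈ FA.Regular.rootTimesPow p K := by
    refine (FA.Regular.pow_mem_rootTimesPow_iff p K (n := p - 1) fun h =>
      absurd (Nat.le_of_dvd (by omega) h) (by omega)) ?_
    have h1 := FA.Regular.unitProj_odd_mem p K h5 hi U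
    rw [hw₀] at h1
    have h2 : w₀ ^ p ∈ FA.Regular.rootTimesPow p K :=
      (FA.Regular.mem_rootTimesPow p K).2 ⟨1, one_mem _, w₀, one_mul _⟩
    exact (Subgroup.mul_mem_cancel_right _ h2).1 h1
  obtain ⟨t, ht, s, rfl⟩ := (FA.Regular.mem_rootTimesPow p K).1 hmem
  obtain ⟨r, hr⟩ := FA.Ext.torsion_eq_neg_zeta_pow K p (by omega) ht
  set z : Kˣ := Units.mk0 (zet p K) ((zet_spec p K).ne_zero hp.out.ne_zero)
  set Z : Kˣ := (-1) ^ r * intUnits s * y with hZ
  have hodd : Odd p := hp.out.odd_of_ne_two (by omega)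
  have hbz : b = z ^ r * Z ^ p := by
    rw [hU, hZ, map_mul, map_pow, show intUnits t = z ^ r * (-1) ^ r from Units.ext (by
      show algebraMap (𝓞 K) K (t : 𝓞 K) = _
      rw [hr, Units.val_mul, Units.val_pow_eq_pow_val, Units.val_pow_eq_pow_val, Units.val_neg,
        Units.val_one, ← mul_pow, mul_neg_one, map_pow, map_neg]
      rfl)]
    rw [mul_pow, mul_pow, ← pow_mul, mul_comm r p, pow_mul, hodd.neg_one_pow]
    simp only [mul_comm, mul_assoc, mul_left_comm]
  refine ⟨z ^ (r / p) * Z, ?_⟩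
  rw [mul_pow, ← pow_mul, hbz]
  congr 2
  refine (Nat.div_mul_cancel ?_).symm
  obtain ⟨γ, hγ⟩ := IsCyclic.exists_generator (α := (ZMod p)ˣ)
  obtain ⟨w, hw⟩ := hb γ
  set c := ((γ : ZMod p) ^ i).val with hcdef
  set a := (γ : ZMod p).val with hadef
  have hσz : galU (sigmaK p K γ) z = z ^ a := Units.ext (by
    rw [galU_val, Units.val_pow_eq_pow_val]
    exact sigmaK_zet p K γ)
  rw [hbz, map_mul, map_pow, map_pow, hσz, ← pow_mul] at hw
  set u : Kˣ := Z ^ c * w / galU (sigmaK p K γ) Z with hu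
  have h1 : z ^ (a * r) = z ^ (r * c) * u ^ p := by
    rw [hu, div_pow, mul_div_assoc', eq_div_iff_mul_eq', hw]
    simp only [mul_pow, ← pow_mul, mul_comm p c]
    simp only [mul_comm, mul_left_comm]
  have hzp : z ^ p = 1 := Units.ext (by
    rw [Units.val_pow_eq_pow_val]; exact (zet_spec p K).pow_eq_one)
  have hup : (u : K) ^ p = zet p K ^ (a * r + (p - 1) * (r * c)) := by
    have h2 : z ^ (a * r + (p - 1) * (r * c)) = u ^ p := by
      rw [pow_add, h1, mul_right_comm,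
        show z ^ ((p - 1) * (r * c)) = (z ^ (r * c)) ^ (p - 1) by rw [← pow_mul, mul_comm],
        ← pow_succ',
        Nat.sub_add_cancel hp.out.one_le, ← pow_mul, mul_comm (r * c) p, pow_mul, hzp, one_pow,
        one_mul]
    have h3 := congrArg Units.val h2
    rw [Units.val_pow_eq_pow_val, Units.val_pow_eq_pow_val] at h3
    exact h3.symm
  have hdvd := (ZMod.natCast_eq_zero_iff _ p).2 (dvd_of_zet_pow_eq_pow (by omega) hup)
  simp only [Nat.cast_add, Nat.cast_mul, Nat.cast_sub hp.out.one_le, Nat.cast_one,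
    ZMod.natCast_self, hcdef, hadef, ZMod.natCast_zmod_val, zero_sub] at hdvd
  have h3 : (r : ZMod p) * ((γ : ZMod p) * (1 - (γ : ZMod p) ^ (i - 1))) = 0 := by
    rw [mul_sub, mul_one, ← pow_succ', Nat.sub_add_cancel (by omega)]
    linear_combination hdvd
  refine (ZMod.natCast_eq_zero_iff r p).1 ((mul_eq_zero.1 h3).resolve_right ?_)
  refine mul_ne_zero γ.ne_zero (sub_ne_zero.2 fun h => ?_)
  have h4 : γ ^ (i - 1) = 1 := Units.ext (by rw [Units.val_pow_eq_pow_val, Units.val_one, ← h])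
  have h6 := Nat.le_of_dvd (by omega) (orderOf_dvd_of_pow_eq_one h4)
  rw [orderOf_eq_card_of_forall_mem_zpowers hγ, Nat.card_eq_fintype_card, ZMod.card_units p] at h6
  omega

/-- **Reflection.** -/
theorem exists_eigen_of_reflected_char (h5 : 5 ≤ p) {i k : ℕ} (hi : Odd i) (hi3 : 3 ≤ i)
    (hip : i ≤ p - 2) (hik : i + k = p) (ψ : ClassGroup (𝓞 K) →* Multiplicative (ZMod p))
    (hψ : ∀ (d : (ZMod p)ˣ) (C : ClassGroup (𝓞 K)),
      ψ (sigmaCl p K d C) = ψ C ^ ((d : ZMod p) ^ k).val)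
    (hne : ψ ≠ 1) :
    ∃ x : ClassGroup (𝓞 K), x ≠ 1 ∧ x ^ p = 1 ∧
      ∀ d : (ZMod p)ˣ, sigmaCl p K d x = x ^ ((d : ZMod p) ^ i).val := by
  haveI : NeZero p := ⟨hp.out.ne_zero⟩
  haveI : IsGalois ℚ K := IsCyclotomicExtension.isGalois {p} ℚ K
  obtain ⟨H, _, _, _, _, _, -, -, ⟨e, he⟩, hcl⟩ := exists_hilbertClassField (K := K)
  have hH : ∀ v : HeightOneSpectrum (𝓞 K), ¬ IsRam H v := fun v => hcl.unram v (sup_top_eq _)
  have hζ := zet_spec p K
  set ζ := zet p K
  have hζH := hζ.map_of_injective (algebraMap K H).injective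
  set zH : Hˣ := Units.mk0 (algebraMap K H ζ) (hζH.ne_zero hp.out.ne_zero)
  have hzH : ∀ σ : H ≃ₐ[K] H, ∀ n : ℕ, σ • zH ^ n = zH ^ n := fun σ n => Units.ext (by
    show σ ((zH ^ n : Hˣ) : H) = ((zH ^ n : Hˣ) : H)
    rw [Units.val_pow_eq_pow_val, Units.val_mk0, map_pow, AlgEquiv.commutes])
  obtain ⟨β, hβ⟩ := groupCohomology.isMulCoboundary₁_of_isMulCocycle₁_of_aut_to_units
    (fun σ => zH ^ (Multiplicative.toAdd (ψ (e.symm σ))).val) (fun g h => by
      show zH ^ _ = g • zH ^ _ * zH ^ _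
      rw [hzH, map_mul, map_mul, toAdd_mul, add_comm]
      refine Units.ext ?_
      rw [Units.val_mul, Units.val_pow_eq_pow_val, Units.val_pow_eq_pow_val,
        Units.val_pow_eq_pow_val, Units.val_mk0]
      exact FA.Kolyvagin.zeta_pow_add hζH _ _)
  have hσβ : ∀ σ : H ≃ₐ[K] H, σ (β : H) =
      algebraMap K H ζ ^ (Multiplicative.toAdd (ψ (e.symm σ))).val * β := fun σ => by
    have := congrArg Units.val (div_eq_iff_eq_mul.1 (hβ σ))
    rwa [Units.val_mul, Units.val_pow_eq_pow_val] at this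
  obtain ⟨b₀, hb₀⟩ := (IsGalois.mem_range_algebraMap_iff_fixed (F := K) ((β : H) ^ p)).mpr
    fun σ => by rw [map_pow, hσβ, mul_pow, pow_right_comm, hζH.pow_eq_one, one_pow, one_mul]
  have hb₀0 : b₀ ≠ 0 := fun h => pow_ne_zero p β.ne_zero (by rw [← hb₀, h, map_zero])
  set b : Kˣ := Units.mk0 b₀ hb₀0
  have hres : IsResChar p ζ b ψ := fun v hv hvb => by
    obtain ⟨Q, hQ, hτ⟩ := artinAt_spec (L := H) v
    refine res_of_frob hζ hv hQ hτ hvb (w := (β : H)) hb₀.symm ?_
    rw [hσβ, map_pow, show e.symm (artinAt H v) = primeCls v from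
      e.symm_apply_eq.2 (he v).symm]
  have hbne : ∀ w : Kˣ, b ≠ w ^ p := fun w hw => by
    have hb' : (β : H) ^ p = algebraMap K H w ^ p := by
      rw [← hb₀, show b₀ = (b : K) from rfl, hw, Units.val_pow_eq_pow_val, map_pow]
    have hw0 : algebraMap K H w ≠ 0 := (map_ne_zero _).2 w.ne_zero
    obtain ⟨j, -, hj⟩ := hζH.eq_pow_of_pow_eq_one (ξ := (β : H) / algebraMap K H w)
      (by rw [div_pow, hb', div_self (pow_ne_zero _ hw0)])
    refine hne (MonoidHom.ext fun C => ?_)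
    have h1 := hσβ (e C)
    rw [e.symm_apply_apply, show (β : H) = algebraMap K H (ζ ^ j * w) by
      rw [map_mul, map_pow, hj, div_mul_cancel₀ _ hw0], AlgEquiv.commutes] at h1
    have h2 := mul_right_cancel₀ ((map_ne_zero _).2
      (mul_ne_zero (pow_ne_zero _ (hζ.ne_zero hp.out.ne_zero)) w.ne_zero)) (h1.symm.trans
        (one_mul _).symm)
    have h3 : (Multiplicative.toAdd (ψ C)).val = 0 :=
      Nat.eq_zero_of_dvd_of_lt (hζH.dvd_of_pow_eq_one _ h2) (ZMod.val_lt _)
    exact Multiplicative.toAdd.injective ((ZMod.val_eq_zero _).1 h3)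
  have hord : ∀ v : HeightOneSpectrum (𝓞 K), (p : ℤ) ∣ ord v b := fun v => by
    obtain ⟨Q, hQ⟩ := exists_belowP K H v
    refine ⟨ord Q β, ?_⟩
    have h1 := ord_baseU Q b
    rw [eIdx_eq_one (hH _), Nat.cast_one, one_mul, hQ,
      show baseU (L := H) b = β ^ p from Units.ext (by
        rw [Units.val_pow_eq_pow_val, ← hb₀]; rfl), ord_pow] at h1
    exact h1.symm
  have heig : ∀ d : (ZMod p)ˣ, ∃ w : Kˣ,
      galU (sigmaK p K d) b = b ^ ((d : ZMod p) ^ i).val * w ^ p := by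
    intro d
    set σ := sigmaK p K d
    set c := ((d : ZMod p) ^ i).val with hcdef
    obtain ⟨w, hw⟩ := exists_eq_pow_of_res_zero hζ (galU σ b / b ^ c)
      (((finite_natCast_mem (p := p)).union (finite_ord_ne_zero b)).union
        ((finite_ord_ne_zero b).preimage (galPrime_injective σ⁻¹).injOn)) fun u hu => by
      simp only [Set.mem_union, Set.mem_ofPred_eq, Set.mem_preimage, not_or, not_not] at hu
      obtain ⟨⟨hup, hu0⟩, hv0⟩ := hu
      set v := galPrime σ⁻¹ u
      have hσv : galPrime σ v = u := by rw [← galPrime_mul, mul_inv_cancel, galPrime_one]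
      have hvp : (p : 𝓞 K) ∉ v.asIdeal := fun h => hup ((natCast_mem_galPrime_iff _ u p).1 h)
      have h1 := res_galPrime σ (sigmaK_zet p K d) (hres v hvp hv0)
      rw [hσv] at h1
      refine res_div hζ h1 (res_pow hζ (hres u hup hu0) c) ?_
      have hu' : primeCls u = sigmaCl p K d (primeCls v) := by
        rw [← galCl_sigmaK, galCl_primeCls, hσv]
      rw [hu', hψ, toAdd_pow, nsmul_eq_mul]
      simp only [hcdef, Nat.cast_mul, ZMod.natCast_zmod_val]
      rw [mul_comm ((d : ZMod p) ^ k), mul_assoc, ← pow_add, add_comm k, hik, ZMod.pow_card,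
        mul_comm]
    exact ⟨w, by rw [← hw, mul_div_cancel]⟩
  obtain ⟨D, hD⟩ := exists_dvs_pow_eq hord
  refine ⟨cls D, fun h1 => ?_, ?_, fun d => ?_⟩
  · obtain ⟨y, hy⟩ : D ∈ (ordHom (F := K)).range := by rw [← ker_cls]; exact h1
    obtain ⟨U, hU⟩ := exists_intUnits_eq (x := b / y ^ p) fun v => by
      rw [← toAdd_ordHom, map_div, map_pow, hy, hD, div_self', toAdd_one, Finsupp.zero_apply]
    obtain ⟨w, hw⟩ := eq_pow_of_unit_eigen h5 hi hi3 hip (b := b) (U := U) (y := y)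
      (by rw [hU, div_mul_cancel]) heig
    exact hbne w hw
  · rw [← map_pow, hD, ← MonoidHom.mem_ker, ker_cls]
    exact ⟨b, rfl⟩
  · obtain ⟨w, hw⟩ := heig d
    set c := ((d : ZMod p) ^ i).val
    have h2 : galDiv (sigmaK p K d) D = D ^ c * ordHom w := dvs_pow_inj hp.out.ne_zero (by
      rw [← map_pow, hD, ← galDiv_ordHom, hw, mul_pow, map_mul, map_pow, map_pow, ← pow_mul,
        mul_comm c p, pow_mul, hD])
    rw [← galCl_sigmaK, ← cls_galDiv, h2, map_mul, map_pow,
      show cls (ordHom w) = 1 by rw [← MonoidHom.mem_ker, ker_cls]; exact ⟨w, rfl⟩, mul_one]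

end FA.HerbrandRibet
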