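import Fermat.Agent.Kolyvagin.Congr
import Fermat.Agent.ExtVanish.Residue
import Fermat.Agent.ExistenceTheorem.KummerRamification

/-!
# Power residues at primes

For a number field `K` with a primitive `p`-th root of unity `ζ`, `Res p ζ v b j` says that `b` is
prime to `v` and `b ^ ((N v - 1) / p) ≡ ζ ^ j` modulo `v`.

* `res_of_frob`: a Frobenius element over `v` multiplies a `p`-th root of `b` by `ζ ^ j`;
* `exists_eq_pow_of_res_zero`: an element all but finitely many of whose residues are trivial is a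
  `p`-th power.

Classical.
-/

set_option autoImplicit false
set_option linter.unusedSectionVars false
set_option linter.style.haveILetI false

noncomputable section

open scoped Classical Pointwise nonZeroDivisors
open NumberField IsDedekindDomain FA.ArtinRec
open FA.Kolyvagin (congr_symm congr_trans congr_mul congr_pow congr_mul_cancel congr_val)

namespace FA.HerbrandRibet

variable {K : Type*} [Field K] [NumberField K]

/-- `b` is prime to `v` and its power residue there is `ζ ^ j`. -/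
def Res (p : ℕ) (ζ : K) (v : HeightOneSpectrum (𝓞 K)) (b : Kˣ) (j : ℕ) : Prop :=
  ord v b = 0 ∧
    v.valuation K ((b : K) ^ ((Ideal.absNorm v.asIdeal - 1) / p) - ζ ^ j) < 1

theorem val_eq_one_of_ord {v : HeightOneSpectrum (𝓞 K)} {b : Kˣ} (h : ord v b = 0) :
    v.valuation K (b : K) = 1 := by
  rw [valuation_eq_exp, h, neg_zero, WithZero.exp_zero]

/-- An element of value one is a quotient of integers prime to the prime. -/
theorem exists_mul_eq_of_val_one (v : HeightOneSpectrum (𝓞 K)) {x : K}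
    (hx : v.valuation K x = 1) :
    ∃ n d : 𝓞 K, v.valuation K (n : K) = 1 ∧ v.valuation K (d : K) = 1 ∧
      x * (d : K) = (n : K) := by
  obtain ⟨n, d, h⟩ := v.exists_primeCompl_mul_eq_or_mul_eq x
  have hd : v.valuation K ((d.1 : 𝓞 K) : K) = 1 :=
    le_antisymm (v.valuation_le_one d.1) (not_lt.1 fun hlt =>
      d.2 ((v.valuation_lt_one_iff_mem d.1).1 hlt))
  rcases h with h | h
  · have h' : x * ((d.1 : 𝓞 K) : K) = (n : K) := h
    exact ⟨n, d.1, by rw [← h', map_mul, hx, hd, one_mul], hd, h'⟩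
  · have h' : x * (n : K) = ((d.1 : 𝓞 K) : K) := h
    have hn : v.valuation K (n : K) = 1 := by
      have := congrArg (v.valuation K) h'
      rwa [map_mul, hx, hd, one_mul] at this
    exact ⟨d.1, n, hd, hn, h'⟩

variable {p : ℕ} [hp : Fact p.Prime]

/-- A Frobenius element is the power by the norm on the elements of value one. -/
theorem val_frob_sub_pow {M : Type*} [Field M] [NumberField M] [Algebra K M] [IsGalois K M]
    {Q : HeightOneSpectrum (𝓞 M)} {τ : M ≃ₐ[K] M} (hτ : IsArithFrobAt (𝓞 K) τ Q.asIdeal) {x : M}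
    (hx : Q.valuation M x = 1) :
    Q.valuation M (τ x - x ^ Ideal.absNorm (belowP K Q).asIdeal) < 1 := by
  set r := Ideal.absNorm (belowP K Q).asIdeal with hr
  have hfrob : ∀ y : 𝓞 M, Q.valuation M (τ (y : M) - (y : M) ^ r) < 1 := fun y => by
    have h1 : τ • y - y ^ Nat.card (𝓞 K ⧸ Q.asIdeal.under (𝓞 K)) ∈ Q.asIdeal := hτ y
    rw [show Nat.card (𝓞 K ⧸ Q.asIdeal.under (𝓞 K)) = r by
      rw [hr, Ideal.absNorm_apply, Submodule.cardQuot_apply]; rfl] at h1
    have h2 : Q.valuation M (algebraMap (𝓞 M) M (τ • y - y ^ r)) < 1 :=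
      (Q.valuation_lt_one_iff_mem (K := M) _).2 h1
    rwa [map_sub (algebraMap (𝓞 M) M), map_pow (algebraMap (𝓞 M) M)] at h2
  obtain ⟨n, d, -, hd, h⟩ := exists_mul_eq_of_val_one Q hx
  have hτd : Q.valuation M (τ (d : M)) = 1 :=
    congr_val (hfrob d) (by rw [map_pow, hd, one_pow])
  refine congr_mul_cancel hτd ?_
  have h1 := hfrob n
  rw [← h, map_mul, mul_pow] at h1
  refine congr_trans h1 (congr_mul (by rw [map_pow, hx, one_pow]) hτd.le (by simp)
    (congr_symm (hfrob d)))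

theorem dvd_absNorm_sub_one' {ζ : K} (hζ : IsPrimitiveRoot ζ p) {v : HeightOneSpectrum (𝓞 K)}
    (hv : (p : 𝓞 K) ∉ v.asIdeal) : p ∣ Ideal.absNorm v.asIdeal - 1 :=
  haveI : NeZero p := ⟨hp.out.ne_zero⟩
  FA.Ext.dvd_absNorm_sub_one hζ.toInteger_isPrimitiveRoot v hv

theorem absNorm_pos (v : HeightOneSpectrum (𝓞 K)) : 1 ≤ Ideal.absNorm v.asIdeal :=
  Nat.one_le_iff_ne_zero.2 fun h => v.ne_bot (Ideal.absNorm_eq_zero_iff.1 h)

/-- **The residue from a Frobenius element.** -/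
theorem res_of_frob {M : Type*} [Field M] [NumberField M] [Algebra K M] [IsGalois K M] {ζ : K}
    (hζ : IsPrimitiveRoot ζ p) {v : HeightOneSpectrum (𝓞 K)} (hv : (p : 𝓞 K) ∉ v.asIdeal)
    {Q : HeightOneSpectrum (𝓞 M)} (hQ : belowP K Q = v) {τ : M ≃ₐ[K] M}
    (hτ : IsArithFrobAt (𝓞 K) τ Q.asIdeal) {b : Kˣ} (hb : ord v b = 0) {w : M}
    (hw : w ^ p = algebraMap K M b) {j : ℕ} (hτw : τ w = algebraMap K M (ζ ^ j) * w) :
    Res p ζ v b j := by
  refine ⟨hb, ?_⟩
  subst hQ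
  set r := Ideal.absNorm (belowP K Q).asIdeal
  have hbv : Q.valuation M (algebraMap K M (b : K)) = 1 := by
    rw [valuation_baseU, val_eq_one_of_ord hb, one_pow]
  have hw1 : Q.valuation M w = 1 :=
    (pow_eq_one_iff_of_nonneg zero_le hp.out.ne_zero).1 (by rw [← map_pow, hw, hbv])
  have h := val_frob_sub_pow hτ hw1
  rw [hτw, show w ^ r = w ^ (r - 1) * w by
    rw [← pow_succ, Nat.sub_add_cancel (absNorm_pos _)]] at h
  have h1 := congr_symm (congr_mul_cancel hw1 h)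
  obtain ⟨m, hm⟩ := dvd_absNorm_sub_one' hζ hv
  rw [hm, pow_mul, hw, ← map_pow, ← map_sub, valuation_baseU] at h1
  rw [hm, Nat.mul_div_cancel_left _ hp.out.pos]
  refine not_le.1 fun hle => h1.not_ge ?_
  exact one_le_pow₀ hle

/-- **Residues are unique.** -/
theorem res_unique {ζ : K} (hζ : IsPrimitiveRoot ζ p) {v : HeightOneSpectrum (𝓞 K)}
    (hv : (p : 𝓞 K) ∉ v.asIdeal) {b : Kˣ} {i j : ℕ} (hi : Res p ζ v b i) (hj : Res p ζ v b j) :
    (i : ZMod p) = j := by
  haveI : NeZero p := ⟨hp.out.ne_zero⟩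
  have h := congr_trans (congr_symm hi.2) hj.2
  rw [pow_eq_pow_mod i hζ.pow_eq_one, pow_eq_pow_mod j hζ.pow_eq_one] at h
  haveI := v.isPrime
  refine (ZMod.natCast_eq_natCast_iff' i j p).2 (FA.Ext.pow_eq_of_sub_mem
    hζ.toInteger_isPrimitiveRoot hv (Nat.mod_lt _ hp.out.pos) (Nat.mod_lt _ hp.out.pos) ?_)
  refine (v.valuation_lt_one_iff_mem (K := K) _).1 ?_
  show v.valuation K (algebraMap (𝓞 K) K (hζ.toInteger ^ (i % p) - hζ.toInteger ^ (j % p))) < 1
  rw [map_sub, map_pow, map_pow]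
  exact h

theorem val_root_pow {ζ : K} (hζ : IsPrimitiveRoot ζ p) (v : HeightOneSpectrum (𝓞 K)) (j : ℕ) :
    v.valuation K (ζ ^ j) = 1 := by
  rw [map_pow, FA.Kolyvagin.val_eq_one_of_pow_eq_one _ hp.out.ne_zero hζ.pow_eq_one, one_pow]

theorem res_mul {ζ : K} (hζ : IsPrimitiveRoot ζ p) {v : HeightOneSpectrum (𝓞 K)} {a b : Kˣ}
    {i j : ℕ} (ha : Res p ζ v a i) (hb : Res p ζ v b j) : Res p ζ v (a * b) (i + j) := by
  refine ⟨by rw [ord_mul, ha.1, hb.1, add_zero], ?_⟩
  rw [Units.val_mul, mul_pow, pow_add]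
  exact congr_mul (by rw [map_pow, val_eq_one_of_ord ha.1, one_pow])
    (val_root_pow hζ v j).le ha.2 hb.2

theorem res_pow {ζ : K} (hζ : IsPrimitiveRoot ζ p) {v : HeightOneSpectrum (𝓞 K)} {b : Kˣ} {j : ℕ}
    (hb : Res p ζ v b j) : ∀ n : ℕ, Res p ζ v (b ^ n) (j * n) := by
  intro n
  refine ⟨by rw [ord_pow, hb.1, mul_zero], ?_⟩
  rw [Units.val_pow_eq_pow_val, pow_mul, pow_right_comm]
  exact congr_pow (by rw [map_pow, val_eq_one_of_ord hb.1, one_pow])
    (val_root_pow hζ v j).le hb.2 n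

/-- Equal residues cancel. -/
theorem res_div {ζ : K} (hζ : IsPrimitiveRoot ζ p) {v : HeightOneSpectrum (𝓞 K)} {a b : Kˣ}
    {i j : ℕ} (ha : Res p ζ v a i) (hb : Res p ζ v b j) (h : (i : ZMod p) = j) :
    Res p ζ v (a / b) 0 := by
  refine ⟨by rw [ord_div, ha.1, hb.1, sub_zero], ?_⟩
  have hij : ζ ^ i = ζ ^ j := pow_eq_pow_of_modEq
    ((ZMod.natCast_eq_natCast_iff i j p).1 h) hζ.pow_eq_one
  have h1 := congr_trans ha.2 (hij ▸ congr_symm hb.2)
  rw [Units.val_div_eq_div_val, div_pow, pow_zero]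
  refine congr_mul_cancel (c := (b : K) ^ ((Ideal.absNorm v.asIdeal - 1) / p))
    (by rw [map_pow, val_eq_one_of_ord hb.1, one_pow]) ?_
  rwa [one_mul, div_mul_cancel₀ _ (pow_ne_zero _ b.ne_zero)]

/-- Fermat's theorem at a prime. -/
theorem val_pow_absNorm_sub_one (v : HeightOneSpectrum (𝓞 K)) {x : K}
    (hx : v.valuation K x = 1) :
    v.valuation K (x ^ (Ideal.absNorm v.asIdeal - 1) - 1) < 1 := by
  haveI := v.isMaximal
  haveI : Finite (𝓞 K ⧸ v.asIdeal) := Ideal.finiteQuotientOfFreeOfNeBot _ v.ne_bot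
  haveI : Fintype (𝓞 K ⧸ v.asIdeal) := Fintype.ofFinite _
  letI := Ideal.Quotient.field v.asIdeal
  have key : ∀ y : 𝓞 K, v.valuation K (y : K) = 1 →
      v.valuation K ((y : K) ^ (Ideal.absNorm v.asIdeal - 1) - 1) < 1 := fun y hy => by
    have h1 : Ideal.Quotient.mk v.asIdeal y ≠ 0 := fun h0 =>
      hy.not_lt ((v.valuation_lt_one_iff_mem y).2 (Ideal.Quotient.eq_zero_iff_mem.1 h0))
    have h2 := FiniteField.pow_card_sub_one_eq_one _ h1
    rw [← Nat.card_eq_fintype_card, ← Submodule.cardQuot_apply, ← Ideal.absNorm_apply, ← map_pow,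
      ← map_one (Ideal.Quotient.mk v.asIdeal), Ideal.Quotient.eq] at h2
    have h3 : v.valuation K
        (algebraMap (𝓞 K) K (y ^ (Ideal.absNorm v.asIdeal - 1) - 1)) < 1 :=
      (v.valuation_lt_one_iff_mem (K := K) _).2 h2
    rwa [map_sub (algebraMap (𝓞 K) K), map_pow (algebraMap (𝓞 K) K),
      map_one (algebraMap (𝓞 K) K)] at h3
  obtain ⟨n, d, hn, hd, h⟩ := exists_mul_eq_of_val_one v hx
  set N := Ideal.absNorm v.asIdeal - 1
  have h1 := key n hn
  rw [← h, mul_pow] at h1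
  refine congr_mul_cancel (c := (d : K) ^ N) (by rw [map_pow, hd, one_pow]) ?_
  rw [one_mul]
  exact congr_trans h1 (congr_symm (key d hd))

/-- A `p`-th power has trivial residue. -/
theorem res_pow_self {ζ : K} (hζ : IsPrimitiveRoot ζ p) {v : HeightOneSpectrum (𝓞 K)}
    (hv : (p : 𝓞 K) ∉ v.asIdeal) {w : Kˣ} (hw : ord v w = 0) : Res p ζ v (w ^ p) 0 := by
  refine ⟨by rw [ord_pow, hw, mul_zero], ?_⟩
  rw [Units.val_pow_eq_pow_val, ← pow_mul, Nat.mul_div_cancel' (dvd_absNorm_sub_one' hζ hv),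
    pow_zero]
  exact val_pow_absNorm_sub_one v (val_eq_one_of_ord hw)

/-- Automorphisms preserve norms. -/
theorem absNorm_galPrime (σ : K ≃ₐ[ℚ] K) (v : HeightOneSpectrum (𝓞 K)) :
    Ideal.absNorm (galPrime σ v).asIdeal = Ideal.absNorm v.asIdeal := by
  simp only [Ideal.absNorm_apply, Submodule.cardQuot_apply]
  exact Nat.card_congr (Ideal.quotientEquiv v.asIdeal (galPrime σ v).asIdeal
    (MulSemiringAction.toRingEquiv (K ≃ₐ[ℚ] K) (𝓞 K) σ) rfl).toEquiv.symm

/-- **Residues and automorphisms.** -/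
theorem res_galPrime [IsGalois ℚ K] {ζ : K} (σ : K ≃ₐ[ℚ] K) {a : ℕ} (hσ : σ ζ = ζ ^ a)
    {v : HeightOneSpectrum (𝓞 K)} {b : Kˣ} {j : ℕ} (h : Res p ζ v b j) :
    Res p ζ (galPrime σ v) (galU σ b) (a * j) := by
  refine ⟨(ord_galU σ v b).trans h.1, ?_⟩
  rw [absNorm_galPrime, galU_val, ← map_pow, pow_mul, ← hσ, ← map_pow, ← map_sub,
    FA.LocalCFT.valuation_galPrime]
  exact h.2

/-- **An element with almost all residues trivial is a `p`-th power.** -/
theorem exists_eq_pow_of_res_zero {ζ : K} (hζ : IsPrimitiveRoot ζ p) (b : Kˣ)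
    {bad : Set (HeightOneSpectrum (𝓞 K))} (hbad : bad.Finite)
    (h : ∀ v ∉ bad, Res p ζ v b 0) : ∃ w : Kˣ, b = w ^ p := by
  by_contra! hne
  haveI : NeZero p := ⟨hp.out.ne_zero⟩
  have hζ' : IsPrimitiveRoot ((hζ.toInteger : 𝓞 K) : K) p := hζ
  set R : Finset Kˣ := {1, b}
  have h1b : (1 : Kˣ) ≠ b := fun e => hne 1 (by rw [one_pow]; exact e.symm)
  have hR : ∀ r ∈ R, ∀ s ∈ R, (∃ c : Kˣ, r / s = c ^ p) → r = s := by
    intro r hr s hs ⟨c, hc⟩
    simp only [R, Finset.mem_insert, Finset.mem_singleton] at hr hs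
    rcases hr with rfl | rfl <;> rcases hs with rfl | rfl
    · rfl
    · exact absurd (by rw [inv_pow, ← hc, one_div, inv_inv]) (hne c⁻¹)
    · exact absurd (by rw [← hc, div_one]) (hne c)
    · rfl
  have hcard := card_le_card_kummerGroup p R hζ' hR
  rw [show R.card = 2 from Finset.card_pair h1b] at hcard
  haveI := isMulCommutative_kummerField p R hζ'
  haveI : Nontrivial (KummerField p R ≃ₐ[K] KummerField p R) :=
    Finite.one_lt_card_iff_nontrivial.1 hcard
  obtain ⟨g, hg⟩ := exists_ne (1 : KummerField p R ≃ₐ[K] KummerField p R)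
  have hfin : (bad ∪ {v : HeightOneSpectrum (𝓞 K) | (p : 𝓞 K) ∈ v.asIdeal}).Finite := by
    refine hbad.union ((Ideal.finite_factors (I := Ideal.span {(p : 𝓞 K)}) ?_).subset
      fun v hv => Ideal.dvd_span_singleton.mpr hv)
    simp [hp.out.ne_zero]
  obtain ⟨v, hvg, hv⟩ :=
    (Set.Infinite.sdiff (infinite_artinAt (L := KummerField p R) g) hfin).nonempty
  rw [Set.mem_union, not_or] at hv
  obtain ⟨Q, hQ, hτ⟩ := artinAt_spec (L := KummerField p R) v
  rw [show artinAt (KummerField p R) v = g from hvg] at hτ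
  refine hg (eq_of_agree_roots p R fun r hr w hw => ?_)
  rw [AlgEquiv.one_apply]
  obtain ⟨ξ, hξ, hgw⟩ := exists_apply_root p hζ' r.ne_zero hw g
  obtain ⟨j, -, rfl⟩ := hζ.eq_pow_of_pow_eq_one hξ
  simp only [R, Finset.mem_insert, Finset.mem_singleton] at hr
  rcases hr with rfl | rfl
  · haveI : NeZero p := ⟨hp.out.ne_zero⟩
    rw [Units.val_one, map_one] at hw
    obtain ⟨i, -, hi⟩ :=
      (hζ.map_of_injective (algebraMap K (KummerField p R)).injective).eq_pow_of_pow_eq_one hw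
    rw [← hi, ← map_pow, AlgEquiv.commutes]
  · have h0 := h v hv.1
    have hj := res_unique hζ hv.2 (res_of_frob hζ hv.2 hQ hτ h0.1 hw hgw) h0
    rw [ZMod.natCast_eq_natCast_iff', Nat.zero_mod] at hj
    rw [hgw, pow_eq_pow_mod j hζ.pow_eq_one, hj, pow_zero, map_one, one_mul]

end FA.HerbrandRibet
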