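import Fermat.Agent.HerbrandRibet.Residue
import Fermat.Agent.Kolyvagin.Kummer
import Fermat.Agent.AmbiguousClass.Divisor
import Fermat.Agent.Catalan.StickelbergerAll
import Fermat.Agent.Regular.Criterion

/-!
# The character of a Kummer element

`IsResChar p ζ b φ` says that the character `φ` of the class group gives the residues of `b`. It
comes from a root `β` of `b` in a field whose Galois group is the class group by the Artin symbol.

* `IsResChar.ne_one`: `φ` is nontrivial if `b` is no `p`-th power;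
* `IsResChar.map_sigmaCl`: if `b` has weight `k` and `i + k = p` then `φ` has weight `i`;
* `exists_eigen_of_char`: a character of weight `i` gives a class of order `p` of weight `i`.

Classical.
-/

set_option autoImplicit false
set_option linter.unusedSectionVars false
set_option linter.style.haveILetI false

noncomputable section

open scoped Classical Pointwise nonZeroDivisors
open NumberField IsDedekindDomain FA.ArtinRec FA.AmbClass
open FA.Ext (sigmaK sigmaCl)

namespace FA.HerbrandRibet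

section general

variable {K : Type*} [Field K] [NumberField K] {p : ℕ} [hp : Fact p.Prime] {ζ : K}

/-- The character gives the residues of `b`. -/
def IsResChar (p : ℕ) (ζ : K) (b : Kˣ) (φ : ClassGroup (𝓞 K) →* Multiplicative (ZMod p)) : Prop :=
  ∀ v : HeightOneSpectrum (𝓞 K), (p : 𝓞 K) ∉ v.asIdeal → ord v b = 0 →
    Res p ζ v b (Multiplicative.toAdd (φ (primeCls v))).val

theorem finite_natCast_mem :
    {v : HeightOneSpectrum (𝓞 K) | (p : 𝓞 K) ∈ v.asIdeal}.Finite := by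
  refine (Ideal.finite_factors (I := Ideal.span {(p : 𝓞 K)}) ?_).subset
    fun v hv => Ideal.dvd_span_singleton.mpr hv
  simp [hp.out.ne_zero]

/-- **The character of a root in a field with group the class group.** -/
theorem exists_isResChar {H : Type*} [Field H] [NumberField H] [Algebra K H] [IsGalois K H]
    (e : ClassGroup (𝓞 K) ≃* (H ≃ₐ[K] H))
    (he : ∀ v : HeightOneSpectrum (𝓞 K), e (primeCls v) = artinAt H v)
    (hζ : IsPrimitiveRoot ζ p) {b : Kˣ} {β : H} (hβ : β ^ p = algebraMap K H b) :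
    ∃ φ : ClassGroup (𝓞 K) →* Multiplicative (ZMod p), IsResChar p ζ b φ ∧
      ∀ C, e C β = β * algebraMap K H ζ ^ (Multiplicative.toAdd (φ C)).val := by
  haveI : NeZero p := ⟨hp.out.ne_zero⟩
  have hζ' := hζ.map_of_injective (algebraMap K H).injective
  have hβ0 : β ≠ 0 := fun h => b.ne_zero ((map_eq_zero (algebraMap K H)).1
    (by rw [← hβ, h, zero_pow hp.out.ne_zero]))
  choose a ha using fun C => FA.Kolyvagin.exists_zmod_apply_root hζ' (e C) b.ne_zero hβ
  have huniq : ∀ C (x : ZMod p), e C β = β * algebraMap K H ζ ^ x.val → a C = x := fun C x hx =>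
    ZMod.val_injective p (hζ'.pow_inj (ZMod.val_lt _) (ZMod.val_lt _)
      (mul_left_cancel₀ hβ0 ((ha C).symm.trans hx)))
  refine ⟨MonoidHom.mk' (fun C => Multiplicative.ofAdd (a C)) fun C D => ?_, fun v hv hb => ?_,
    ha⟩
  · rw [← ofAdd_add, Multiplicative.ofAdd.injective.eq_iff]
    refine huniq _ _ ?_
    rw [map_mul e, AlgEquiv.mul_apply, ha D, map_mul, ha C, map_pow, AlgEquiv.commutes,
      FA.Kolyvagin.zeta_pow_add hζ', mul_assoc]
  · obtain ⟨Q, hQ, hτ⟩ := artinAt_spec (L := H) v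
    refine res_of_frob hζ hv hQ hτ hb hβ ?_
    rw [← he, ha, map_pow, mul_comm]
    rfl

/-- **The character is nontrivial.** -/
theorem IsResChar.ne_one {b : Kˣ} {φ : ClassGroup (𝓞 K) →* Multiplicative (ZMod p)}
    (hφ : IsResChar p ζ b φ) (hζ : IsPrimitiveRoot ζ p) (hb : ∀ w : Kˣ, b ≠ w ^ p) : φ ≠ 1 := by
  rintro rfl
  obtain ⟨w, hw⟩ := exists_eq_pow_of_res_zero hζ b
    ((finite_natCast_mem (p := p)).union (finite_ord_ne_zero b)) fun v hv => by
      simp only [Set.mem_union, Set.mem_ofPred_eq, not_or, not_not] at hv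
      haveI : NeZero p := ⟨hp.out.ne_zero⟩
      simpa using hφ v hv.1 hv.2
  exact hb w hw

theorem natCast_mem_galPrime_iff (σ : K ≃ₐ[ℚ] K) (v : HeightOneSpectrum (𝓞 K)) (n : ℕ) :
    (n : 𝓞 K) ∈ (galPrime σ v).asIdeal ↔ (n : 𝓞 K) ∈ v.asIdeal := by
  show (n : 𝓞 K) ∈ σ • v.asIdeal ↔ _
  rw [Ideal.mem_pointwise_smul_iff_inv_smul_mem,
    show σ⁻¹ • (n : 𝓞 K) = n from map_natCast (MulSemiringAction.toRingHom _ _ σ⁻¹) n]

/-- **Equivariance.** -/
theorem IsResChar.map_galCl [IsGalois ℚ K] {b : Kˣ}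
    {φ : ClassGroup (𝓞 K) →* Multiplicative (ZMod p)} (hφ : IsResChar p ζ b φ)
    (hζ : IsPrimitiveRoot ζ p) (σ : K ≃ₐ[ℚ] K) {a : ℕ} (hσ : σ ζ = ζ ^ a) {c : ℕ} {w : Kˣ}
    (hb : galU σ b = b ^ c * w ^ p) {k : ℕ} (hk : (c : ZMod p) * k = a)
    (hc : (c : ZMod p) ≠ 0) (C : ClassGroup (𝓞 K)) : φ (galCl σ C) = φ C ^ k := by
  haveI : NeZero p := ⟨hp.out.ne_zero⟩
  set S : Set (HeightOneSpectrum (𝓞 K)) :=
    {v | (p : 𝓞 K) ∈ v.asIdeal} ∪ {v | ord v b ≠ 0} ∪ {v | ord (galPrime σ v) b ≠ 0}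
  have hS : S.Finite := ((finite_natCast_mem (p := p)).union (finite_ord_ne_zero b)).union
    ((finite_ord_ne_zero b).preimage (galPrime_injective σ).injOn)
  have hle : Subgroup.closure (FA.Catalan.degreeOneClasses S) ≤
      MonoidHom.eqLocus (φ.comp (galCl σ)) ((powMonoidHom k).comp φ) := by
    refine (Subgroup.closure_le _).2 ?_
    rintro _ ⟨v, hv, -, rfl⟩
    show φ (galCl σ (primeCls v)) = φ (primeCls v) ^ k
    simp only [S, Set.mem_union, Set.mem_ofPred_eq, not_or, not_not] at hv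
    obtain ⟨⟨hvp, hv0⟩, hu0⟩ := hv
    rw [galCl_primeCls]
    set u := galPrime σ v
    have hup : (p : 𝓞 K) ∉ u.asIdeal := fun h => hvp ((natCast_mem_galPrime_iff σ v p).1 h)
    have hσb : ord u (galU σ b) = 0 := (ord_galU σ v b).trans hv0
    have hw0 : ord u w = 0 := by
      rw [hb, ord_mul, ord_pow, ord_pow, hu0, mul_zero, zero_add, mul_eq_zero] at hσb
      exact hσb.resolve_left (Int.natCast_ne_zero.2 hp.out.ne_zero)
    have h1 := res_galPrime σ hσ (hφ v hvp hv0)
    have h2 := res_mul hζ (res_pow hζ (hφ u hup hu0) c) (res_pow_self hζ hup hw0)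
    rw [← hb] at h2
    have h3 := res_unique hζ hup h1 h2
    simp only [Nat.cast_mul, add_zero, ZMod.natCast_zmod_val,
      ← hk] at h3
    refine Multiplicative.toAdd.injective ?_
    rw [toAdd_pow, nsmul_eq_mul]
    refine mul_left_cancel₀ hc ?_
    rw [← mul_assoc, h3, mul_comm]
  rw [FA.Catalan.closure_degreeOneClasses hS] at hle
  exact hle (Subgroup.mem_top C)

end general

section cyclotomic

variable (p : ℕ) [hp : Fact p.Prime] (K : Type*) [Field K] [NumberField K]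
  [IsCyclotomicExtension {p} ℚ K]

/-- The root of unity. -/
abbrev zet : K := (FA.Ext.zetaInt p K : K)

theorem zet_spec : IsPrimitiveRoot (zet p K) p :=
  IsCyclotomicExtension.zeta_spec p ℚ K

theorem sigmaK_zet (d : (ZMod p)ˣ) : sigmaK p K d (zet p K) = zet p K ^ (d : ZMod p).val := by
  rw [← FA.Ext.sigma_coe, FA.Ext.sigma_zetaInt]
  exact map_pow (algebraMap (𝓞 K) K) _ _

theorem galCl_sigmaK (d : (ZMod p)ˣ) (C : ClassGroup (𝓞 K)) :
    galCl (sigmaK p K d) C = sigmaCl p K d C := by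
  have h : MulSemiringAction.toRingEquiv (K ≃ₐ[ℚ] K) (𝓞 K) (sigmaK p K d) =
      FA.Ext.sigma p K d := RingEquiv.ext fun x => RingOfIntegers.ext rfl
  show ClassGroup.mulEquiv _ C = ClassGroup.mulEquiv _ C
  rw [h]

variable {p K}

theorem natCast_val_pow (d : (ZMod p)ˣ) (n : ℕ) :
    ((((d : ZMod p) ^ n).val : ℕ) : ZMod p) = (d : ZMod p) ^ n :=
  haveI : NeZero p := ⟨hp.out.ne_zero⟩
  ZMod.natCast_zmod_val _

/-- **The weight of the character.** -/
theorem IsResChar.map_sigmaCl {b : Kˣ} {φ : ClassGroup (𝓞 K) →* Multiplicative (ZMod p)}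
    (hφ : IsResChar p (zet p K) b φ) {i k : ℕ} (hik : i + k = p)
    (hb : ∀ d : (ZMod p)ˣ, ∃ w : Kˣ,
      galU (sigmaK p K d) b = b ^ ((d : ZMod p) ^ k).val * w ^ p)
    (d : (ZMod p)ˣ) (C : ClassGroup (𝓞 K)) :
    φ (sigmaCl p K d C) = φ C ^ ((d : ZMod p) ^ i).val := by
  haveI : NeZero p := ⟨hp.out.ne_zero⟩
  haveI : IsGalois ℚ K := IsCyclotomicExtension.isGalois {p} ℚ K
  obtain ⟨w, hw⟩ := hb d
  rw [← galCl_sigmaK]
  refine hφ.map_galCl (zet_spec p K) (sigmaK p K d) (sigmaK_zet p K d) hw ?_ ?_ C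
  · rw [natCast_val_pow, natCast_val_pow, ZMod.natCast_zmod_val, ← pow_add, add_comm, hik,
      ZMod.pow_card]
  · rw [natCast_val_pow]
    exact pow_ne_zero _ d.ne_zero

/-- **A class from a character.** -/
theorem exists_eigen_of_char {i : ℕ} (φ : ClassGroup (𝓞 K) →* Multiplicative (ZMod p))
    (hφ : ∀ (d : (ZMod p)ˣ) (C : ClassGroup (𝓞 K)),
      φ (sigmaCl p K d C) = φ C ^ ((d : ZMod p) ^ i).val)
    (hne : φ ≠ 1) :
    ∃ x : ClassGroup (𝓞 K), x ≠ 1 ∧ x ^ p = 1 ∧
      ∀ d : (ZMod p)ˣ, sigmaCl p K d x = x ^ ((d : ZMod p) ^ i).val := by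
  haveI : NeZero p := ⟨hp.out.ne_zero⟩
  by_contra hno
  have hP : ∀ x : ClassGroup (𝓞 K), x ^ p = 1 → FA.Ext.weightProj p K i x = 1 := fun x hx => by
    by_contra h1
    exact hno ⟨_, h1, by rw [← map_pow, hx, map_one], FA.Regular.weightProj_eigen p K i hx⟩
  have hproj : ∀ C, φ (FA.Ext.weightProj p K i C) = (φ C)⁻¹ := fun C => by
    refine Multiplicative.toAdd.injective ?_
    simp only [FA.Ext.weightProj, MonoidHom.coe_mk, OneHom.coe_mk, map_prod, map_pow, hφ,
      toAdd_prod, toAdd_pow, toAdd_inv, nsmul_eq_mul, natCast_val_pow, ← mul_assoc, ← mul_pow,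
      Units.inv_mul, one_pow, one_mul, Finset.sum_const, Finset.card_univ, ZMod.card_units p]
    rw [Nat.cast_sub hp.out.one_le, ZMod.natCast_self, Nat.cast_one, zero_sub, neg_one_mul]
  have key : ∀ (t : ℕ) (C : ClassGroup (𝓞 K)), C ^ p ^ t = 1 → φ C = 1 := by
    intro t
    induction t with
    | zero => intro C hC; rw [pow_zero, pow_one] at hC; rw [hC, map_one]
    | succ t ih =>
      intro C hC
      have h1 := ih (FA.Ext.weightProj p K i C)
        (by rw [← map_pow]; exact hP _ (by rw [← pow_mul, ← pow_succ, hC]))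
      rwa [hproj, inv_eq_one] at h1
  obtain ⟨a, m, hm, hN⟩ := Nat.exists_eq_pow_mul_and_not_dvd
    (Nat.card_pos (α := ClassGroup (𝓞 K))).ne' p hp.out.ne_one
  refine hne (MonoidHom.ext fun C => ?_)
  have h1 := key a (C ^ m) (by rw [← pow_mul, mul_comm, ← hN]; exact pow_card_eq_one')
  rw [map_pow] at h1
  have h2 : φ C ^ p = 1 := Multiplicative.toAdd.injective (by
    rw [toAdd_pow, nsmul_eq_mul, ZMod.natCast_self, zero_mul]; rfl)
  rw [MonoidHom.one_apply, ← orderOf_eq_one_iff, ← Nat.dvd_one,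
    ← ((Nat.Prime.coprime_iff_not_dvd hp.out).2 hm).gcd_eq_one]
  exact Nat.dvd_gcd (orderOf_dvd_of_pow_eq_one h2) (orderOf_dvd_of_pow_eq_one h1)

end cyclotomic

end FA.HerbrandRibet
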