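import Fermat.Agent.Kolyvagin.Divisors
import Fermat.Agent.Regular.RealClassGroup

/-!
# Eigen classes of the real subfield

* `exists_eigen_order_p`: an eigenvector in the classes modulo the exact power `p ^ v` in the class
  number gives an eigen class of order `p`;
* `exists_eigen_of_real_eigen`: an eigen class of order `p` of `ℚ(ζ_p)⁺` extends to one of
  `ℚ(ζ_p)`.

Classical.
-/

set_option autoImplicit false
set_option linter.unusedSectionVars false
set_option linter.style.haveILetI false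

noncomputable section

open scoped Classical nonZeroDivisors
open NumberField IsDedekindDomain FA.ArtinRec FA.AmbClass FA.Kolyvagin

namespace FA.HerbrandRibet

/-- **An eigenvector modulo `p ^ v` gives an eigen class of order `p`.** -/
theorem exists_eigen_order_p {F : Type*} [Field F] [NumberField F] {p : ℕ} [hp : Fact p.Prime]
    {G : Type*} [CommGroup G] [Fintype G] (τ : G →* (F ≃ₐ[ℚ] F))
    {v : ℕ} (hv : v = padicValNat p (classNumber F)) {y : Aq F (p ^ v)} (hy : y ≠ 0) (c : G → ℕ)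
    (hc : ∀ g, phiq (phiA τ) _ g y = c g • y) :
    ∃ x : ClassGroup (𝓞 F), x ≠ 1 ∧ x ^ p = 1 ∧ ∀ g, galCl (τ g) x = x ^ c g := by
  obtain ⟨q, hq⟩ : p ^ v ∣ classNumber F := hv ▸ pow_padicValNat_dvd
  have hqp : ¬ p ∣ q := fun h => by
    have h1 : p ^ (v + 1) ∣ classNumber F := by
      rw [hq, pow_succ]; exact mul_dvd_mul_left _ h
    rw [padicValNat_dvd_iff_le (classNumber_pos F).ne', ← hv] at h1
    omega
  -- the `p`-primary classes inject
  have hinj : ∀ z : ClassGroup (𝓞 F), z ^ (p ^ v) = 1 →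
      mkq (p ^ v) (Additive.ofMul z) = 0 → z = 1 := by
    intro z hz hz0
    obtain ⟨w, hw⟩ := mkq_eq_zero_iff.1 hz0
    have hzq : z ^ q = 1 := by
      rw [show z = Additive.toMul w ^ (p ^ v) from (congrArg Additive.toMul hw).symm,
        ← pow_mul, ← hq]
      exact pow_card_eq_one
    rw [← orderOf_eq_one_iff, ← Nat.dvd_one,
      ← ((hp.out.coprime_iff_not_dvd.2 hqp).pow_left v).gcd_eq_one]
    exact Nat.dvd_gcd (orderOf_dvd_of_pow_eq_one hz) (orderOf_dvd_of_pow_eq_one hzq)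
  have hex : ∃ j, p ^ j • y = 0 := ⟨v, nsmul_modq_eq_zero _ _⟩
  have hspec := Nat.find_spec hex
  obtain ⟨j, hj⟩ : ∃ j, Nat.find hex = j + 1 :=
    Nat.exists_eq_succ_of_ne_zero fun h0 => hy (by rwa [h0, pow_zero, one_nsmul] at hspec)
  rw [hj, pow_succ', mul_nsmul'] at hspec
  have hne : p ^ j • y ≠ 0 := Nat.find_min hex (by omega)
  set y' := p ^ j • y
  obtain ⟨C', hC'⟩ := mkq_surjective (p ^ v) y'
  set C := Additive.toMul C'
  set x := C ^ q
  have hxM : x ^ (p ^ v) = 1 := by rw [← pow_mul, mul_comm, ← hq]; exact pow_card_eq_one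
  have hxmk : mkq (p ^ v) (Additive.ofMul x) = q • y' := by
    rw [← hC', ← map_nsmul]; rfl
  refine ⟨x, fun h1 => hne ?_, ?_, fun g => ?_⟩
  · rw [h1, ofMul_one, map_zero] at hxmk
    rw [← AddMonoid.addOrderOf_eq_one_iff, ← Nat.dvd_one,
      ← (hp.out.coprime_iff_not_dvd.2 hqp).gcd_eq_one]
    exact Nat.dvd_gcd (addOrderOf_dvd_of_nsmul_eq_zero hspec)
      (addOrderOf_dvd_of_nsmul_eq_zero hxmk.symm)
  · refine hinj _ (by rw [← pow_mul, mul_comm, pow_mul, hxM, one_pow]) ?_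
    rw [ofMul_pow, map_nsmul, hxmk, nsmul_left_comm, hspec, nsmul_zero]
  · refine mul_inv_eq_one.1 (hinj _ ?_ ?_)
    · rw [mul_pow, inv_pow, ← map_pow, hxM, map_one, ← pow_mul, mul_comm (c g), pow_mul,
        hxM, one_pow, inv_one, one_mul]
    · rw [ofMul_mul, ofMul_inv, map_add, map_neg, ofMul_pow, map_nsmul, hxmk,
        show mkq (p ^ v) (Additive.ofMul (galCl (τ g) x)) =
          phiq (phiA τ) (p ^ v) g (mkq (p ^ v) (Additive.ofMul x)) from rfl,
        hxmk, map_nsmul, map_nsmul, hc, ← mul_nsmul, ← mul_nsmul, ← mul_nsmul, ← mul_nsmul,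
        add_neg_eq_zero]
      congr 1
      ring

variable {p : ℕ} [hp : Fact p.Prime] (K : Type*) [Field K] [NumberField K]
  [IsCyclotomicExtension {p} ℚ K] [IsCMField K]

variable (p) in
/-- The restriction of `ζ ↦ ζ ^ d` to the real subfield. -/
def restrictReal [IsGalois ℚ (maximalRealSubfield K)] :
    (ZMod p)ˣ →* (maximalRealSubfield K ≃ₐ[ℚ] maximalRealSubfield K) :=
  (AlgEquiv.restrictNormalHom (maximalRealSubfield K)).comp (FA.Ext.sigmaK p K)

theorem algebraMap_restrictReal [IsGalois ℚ (maximalRealSubfield K)] (d : (ZMod p)ˣ)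
    (y : maximalRealSubfield K) :
    algebraMap (maximalRealSubfield K) K (restrictReal p K d y) =
      FA.Ext.sigmaK p K d (algebraMap (maximalRealSubfield K) K y) :=
  AlgEquiv.restrictNormal_commutes _ _ y

/-- **An eigen class of the real subfield gives one of `ℚ(ζ_p)`.** -/
theorem exists_eigen_of_real_eigen [IsGalois ℚ (maximalRealSubfield K)] (hp2 : p ≠ 2) {k : ℕ}
    {x : ClassGroup (𝓞 (maximalRealSubfield K))} (hx1 : x ≠ 1) (hx : x ^ p = 1)
    (heig : ∀ d : (ZMod p)ˣ, galCl (restrictReal p K d) x = x ^ ((d : ZMod p) ^ k).val) :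
    ∃ y : ClassGroup (𝓞 K), y ≠ 1 ∧ y ^ p = 1 ∧
      ∀ d : (ZMod p)ˣ, FA.Ext.sigmaCl p K d y = y ^ ((d : ZMod p) ^ k).val := by
  set f := algebraMap (𝓞 (maximalRealSubfield K)) (𝓞 K)
  have hf : Function.Injective f := FaithfulSMul.algebraMap_injective _ _
  obtain ⟨I, rfl⟩ := ClassGroup.mk0_surjective x
  have hmap : ∀ A : (Ideal (𝓞 (maximalRealSubfield K)))⁰, A.1.map f ∈ (Ideal (𝓞 K))⁰ := fun A =>
    mem_nonZeroDivisors_iff_ne_zero.mpr fun h => nonZeroDivisors.coe_ne_zero A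
      ((Ideal.map_eq_bot_iff_of_injective hf).1 h)
  have hext : ∀ A B : (Ideal (𝓞 (maximalRealSubfield K)))⁰,
      ClassGroup.mk0 A = ClassGroup.mk0 B →
      ClassGroup.mk0 (⟨_, hmap A⟩ : (Ideal (𝓞 K))⁰) = ClassGroup.mk0 ⟨_, hmap B⟩ := fun A B h => by
    obtain ⟨a, b, ha, hb, h'⟩ := ClassGroup.mk0_eq_mk0_iff.1 h
    refine ClassGroup.mk0_eq_mk0_iff.2 ⟨f a, f b, (map_ne_zero_iff f hf).2 ha,
      (map_ne_zero_iff f hf).2 hb, ?_⟩
    show Ideal.span {f a} * A.1.map f = Ideal.span {f b} * B.1.map f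
    rw [← Set.image_singleton, ← Ideal.map_span, ← Ideal.map_mul, h', Ideal.map_mul,
      Ideal.map_span, Set.image_singleton]
  set J : (Ideal (𝓞 K))⁰ := ⟨_, hmap I⟩
  have hJpow : ∀ n : ℕ, ClassGroup.mk0 J ^ n = ClassGroup.mk0 ⟨_, hmap (I ^ n)⟩ := fun n => by
    rw [← map_pow]
    exact congrArg ClassGroup.mk0 (Subtype.ext (by
      show I.1.map f ^ n = (I.1 ^ n).map f
      rw [Ideal.map_pow]))
  refine ⟨ClassGroup.mk0 J, fun h1 => hx1 ?_, ?_, fun d => ?_⟩
  · obtain ⟨⟨t, ht⟩⟩ := (ClassGroup.mk0_eq_one_iff J.2).mp h1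
    have h2 : ClassGroup.mk0 I ^ 2 = 1 := by
      rw [← map_pow]
      refine (ClassGroup.mk0_eq_one_iff _).mpr
        ⟨⟨Algebra.intNorm (𝓞 (maximalRealSubfield K)) (𝓞 K) t, ?_⟩⟩
      show I.1 ^ 2 = _
      have h := Ideal.relNorm_algebraMap (S := 𝓞 K) I.1
      rw [show I.1.map f = Ideal.span {t} from ht, Ideal.relNorm_singleton,
        ← IsFractionRing.finrank_eq (𝓞 (maximalRealSubfield K)) (maximalRealSubfield K) (𝓞 K) K,
        Algebra.IsQuadraticExtension.finrank_eq_two (maximalRealSubfield K) K] at h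
      exact h.symm
    rw [← orderOf_eq_one_iff, ← Nat.dvd_one,
      ← ((Nat.coprime_primes hp.out Nat.prime_two).2 hp2).gcd_eq_one]
    exact Nat.dvd_gcd (orderOf_dvd_of_pow_eq_one hx) (orderOf_dvd_of_pow_eq_one h2)
  · rw [hJpow]
    refine (hext _ 1 (by rw [map_pow, hx, map_one])).trans ?_
    rw [← map_one ClassGroup.mk0]
    exact congrArg ClassGroup.mk0 (Subtype.ext (by
      show (1 : Ideal (𝓞 (maximalRealSubfield K))).map f = 1
      rw [Ideal.one_eq_top, Ideal.map_top, Ideal.one_eq_top]))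
  · set g : 𝓞 (maximalRealSubfield K) →+* 𝓞 (maximalRealSubfield K) :=
      (MulSemiringAction.toRingEquiv (maximalRealSubfield K ≃ₐ[ℚ] maximalRealSubfield K)
        (𝓞 (maximalRealSubfield K)) (restrictReal p K d)).toRingHom
    have hg : I.1.map g ∈ (Ideal (𝓞 (maximalRealSubfield K)))⁰ :=
      mem_nonZeroDivisors_iff_ne_zero.mpr fun h => nonZeroDivisors.coe_ne_zero I
        ((Ideal.map_eq_bot_iff_of_injective (RingEquiv.injective _)).1 h)
    have hgal : galCl (restrictReal p K d) (ClassGroup.mk0 I) = ClassGroup.mk0 ⟨_, hg⟩ := by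
      show ClassGroup.mulEquiv _ (ClassGroup.mk0 I) = _
      rw [ClassGroup.mulEquiv_mk0]
      exact congrArg ClassGroup.mk0 (Subtype.ext rfl)
    have h := heig d
    rw [hgal, ← map_pow] at h
    rw [hJpow, ← hext _ _ h]
    refine FA.Ext.sigmaCl_mk0 p K d J ⟨_, hmap ⟨_, hg⟩⟩ ?_
    show (I.1.map g).map f = (I.1.map f).map (FA.Ext.sigma p K d : 𝓞 K →+* 𝓞 K)
    rw [Ideal.map_map, Ideal.map_map]
    congr 1
    exact RingHom.ext fun z => RingOfIntegers.ext (algebraMap_restrictReal K d _)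

end FA.HerbrandRibet
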