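import Fermat.Agent.Kolyvagin.GroupRing
import Mathlib.NumberTheory.Basic

/-!
# The idempotent of a character

For a character `χ` of a finite abelian group `G` with values in `ℤ/p^m`, `p ∤ #G`, the element
`#G⁻¹ ∑ χ (g⁻¹) g` is a primitive idempotent of `(ℤ/p^m)[G]`. The Teichmüller powers
`d ↦ d̃ ^ (p ^ (m - 1))` lift the identity of `(ℤ/p)ˣ`.

Classical.
-/

set_option autoImplicit false
set_option linter.unusedSectionVars false
set_option linter.style.haveILetI false

noncomputable section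

open scoped Classical
open MonoidAlgebra (single)

namespace FA.HerbrandRibet

variable {p m : ℕ} [hp : Fact p.Prime]

/-- Congruent integers have congruent high powers. -/
theorem natCast_pow_congr (hm : 0 < m) {a b : ℕ} (h : (a : ZMod p) = b) :
    ((a : ZMod (p ^ m)) ^ p ^ (m - 1)) = (b : ZMod (p ^ m)) ^ p ^ (m - 1) := by
  rw [← sub_eq_zero, ← Int.cast_natCast (R := ZMod (p ^ m)) a, ← Int.cast_natCast b,
    ← Int.cast_pow, ← Int.cast_pow, ← Int.cast_sub, ZMod.intCast_zmod_eq_zero_iff_dvd,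
    Nat.cast_pow]
  have h1 : (p : ℤ) ∣ (a : ℤ) - b := by
    rw [← ZMod.intCast_zmod_eq_zero_iff_dvd, Int.cast_sub, Int.cast_natCast, Int.cast_natCast, h,
      sub_self]
  have h2 := dvd_sub_pow_of_dvd_sub h1 (m - 1)
  rwa [Nat.sub_add_cancel hm] at h2

/-- The Teichmüller lift modulo `p ^ m`. -/
def teich (hm : 0 < m) : (ZMod p)ˣ →* ZMod (p ^ m) where
  toFun d := ((d : ZMod p).val : ZMod (p ^ m)) ^ p ^ (m - 1)
  map_one' := by
    haveI : NeZero p := ⟨hp.out.ne_zero⟩
    rw [natCast_pow_congr hm (b := 1) (by rw [ZMod.natCast_zmod_val, Units.val_one, Nat.cast_one]),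
      Nat.cast_one, one_pow]
  map_mul' d e := by
    haveI : NeZero p := ⟨hp.out.ne_zero⟩
    rw [← mul_pow, ← Nat.cast_mul]
    exact natCast_pow_congr hm (by simp)

theorem castHom_teich (hm : 0 < m) (d : (ZMod p)ˣ) :
    ZMod.castHom (dvd_pow_self p hm.ne') (ZMod p) (teich hm d) = d := by
  haveI : NeZero p := ⟨hp.out.ne_zero⟩
  show ZMod.castHom _ (ZMod p) (((d : ZMod p).val : ZMod (p ^ m)) ^ p ^ (m - 1)) = _
  rw [map_pow, map_natCast, ZMod.natCast_zmod_val, ZMod.pow_card_pow]

/-- `ℤ/p^m` has two idempotents. -/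
theorem idem_zmod (hm : 0 < m) {x : ZMod (p ^ m)} (hx : x * x = x) : x = 0 ∨ x = 1 := by
  haveI : NeZero (p ^ m) := ⟨pow_ne_zero _ hp.out.ne_zero⟩
  have hunit : ∀ y : ZMod (p ^ m), ¬ p ∣ y.val → IsUnit y := fun y hy => by
    rw [← ZMod.natCast_zmod_val y, ZMod.isUnit_iff_coprime]
    exact ((hp.out.coprime_iff_not_dvd.2 hy).pow_left m).symm
  by_cases h : p ∣ x.val
  · left
    have h1 : IsUnit (1 - x) := hunit _ fun h' => hp.out.not_dvd_one (by
      have e : ((((1 - x).val + x.val : ℕ)) : ZMod p) = 0 :=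
        (ZMod.natCast_eq_zero_iff _ p).2 (dvd_add h' h)
      have e' : (((1 - x).val + x.val : ℕ) : ZMod (p ^ m)) = ((1 : ℕ) : ZMod (p ^ m)) := by
        rw [Nat.cast_add, ZMod.natCast_zmod_val, ZMod.natCast_zmod_val, Nat.cast_one,
          sub_add_cancel]
      have e'' := congrArg (ZMod.castHom (dvd_pow_self p hm.ne') (ZMod p)) e'
      rw [map_natCast, map_natCast, e] at e''
      exact (ZMod.natCast_eq_zero_iff 1 p).1 e''.symm)
    exact (h1.mul_left_eq_zero).1 (by rw [mul_sub, mul_one, hx, sub_self])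
  · right
    exact (hunit x h).mul_left_cancel (hx.trans (mul_one x).symm)

variable {G : Type*} [CommGroup G] [Fintype G]

/-- The character extended to the group ring. -/
def charEval (χ : G →* ZMod (p ^ m)) : MonoidAlgebra (ZMod (p ^ m)) G →+* ZMod (p ^ m) :=
  (MonoidAlgebra.lift (ZMod (p ^ m)) (ZMod (p ^ m)) G χ).toRingHom

theorem charEval_single (χ : G →* ZMod (p ^ m)) (g : G) (c : ZMod (p ^ m)) :
    charEval χ (single g c) = c * χ g :=
  MonoidAlgebra.lift_single χ g c

/-- **The idempotent of a character.** -/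
theorem exists_charIdem (hm : 0 < m) (hG : ¬ p ∣ Fintype.card G) (χ : G →* ZMod (p ^ m)) :
    ∃ e : MonoidAlgebra (ZMod (p ^ m)) G, FA.Kolyvagin.IsPrim e ∧ charEval χ e = 1 ∧
      ∀ x, x * e = single 1 (charEval χ x) * e := by
  haveI : NeZero (p ^ m) := ⟨pow_ne_zero _ hp.out.ne_zero⟩
  obtain ⟨N, hN⟩ : ∃ N : ZMod (p ^ m), N * (Fintype.card G : ZMod (p ^ m)) = 1 :=
    ((ZMod.isUnit_iff_coprime _ _).2
      ((hp.out.coprime_iff_not_dvd.2 hG).pow_left m).symm).exists_left_inv
  set e : MonoidAlgebra (ZMod (p ^ m)) G := ∑ g : G, single g (N * χ g⁻¹) with he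
  have heval : charEval χ e = 1 := by
    rw [he, map_sum]
    simp only [charEval_single, mul_assoc, ← map_mul, inv_mul_cancel, map_one, mul_one,
      Finset.sum_const, Finset.card_univ, nsmul_eq_mul]
    rw [mul_comm, hN]
  have hmul : ∀ x, x * e = single 1 (charEval χ x) * e := by
    intro x
    induction x using MonoidAlgebra.induction_linear with
    | zero => simp
    | add a b ha hb => rw [add_mul, ha, hb, map_add, MonoidAlgebra.single_add, add_mul]
    | single h c =>
      rw [charEval_single, he, Finset.mul_sum, Finset.mul_sum]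
      refine Fintype.sum_equiv (Equiv.mulLeft h) _ _ fun g => ?_
      rw [Equiv.coe_mulLeft, MonoidAlgebra.single_mul_single, MonoidAlgebra.single_mul_single,
        one_mul, mul_inv_rev, map_mul]
      have hh : χ h * χ h⁻¹ = 1 := by rw [← map_mul, mul_inv_cancel, map_one]
      congr 1
      linear_combination (-(c * N * χ g⁻¹)) * hh
  refine ⟨e, ⟨?_, ?_, fun f hf hfe => ?_⟩, heval, hmul⟩
  · rw [hmul, heval, ← MonoidAlgebra.one_def, one_mul]
  · intro h0
    rw [h0, map_zero] at heval
    haveI : Fact (1 < p ^ m) := ⟨Nat.one_lt_pow hm.ne' hp.out.one_lt⟩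
    exact zero_ne_one heval
  · have hidem : charEval χ f * charEval χ f = charEval χ f := by rw [← map_mul, hf]
    rw [← hfe, hmul]
    rcases idem_zmod hm hidem with h | h <;> rw [h]
    · left; rw [MonoidAlgebra.single_zero, zero_mul]
    · right; rw [← MonoidAlgebra.one_def, one_mul]

end FA.HerbrandRibet
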