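import Fermat.Agent.HerbrandRibet.Character
import Fermat.Agent.ExistenceTheorem.HilbertClassField
import Fermat.Agent.Regular.VandiverReal

/-!
# Congruent units of even weight

A unit of even weight `k` congruent to an integer modulo `p` is congruent to a `p`-th power modulo
`(ζ - 1) ^ p`, so its `p`-th root lies in the Hilbert class field. If it is no `p`-th power this
gives a class of order `p` of weight `p - k`.

Classical.
-/

set_option autoImplicit false
set_option linter.unusedSectionVars false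
set_option linter.style.haveILetI false

noncomputable section

open scoped Classical Pointwise nonZeroDivisors
open NumberField IsDedekindDomain FA.ArtinRec FA.AmbClass
open FA.Ext (sigmaK sigmaU sigmaCl)

namespace FA.HerbrandRibet

variable {p : ℕ} [hp : Fact p.Prime] {K : Type*} [Field K] [NumberField K]
  [IsCyclotomicExtension {p} ℚ K]

/-- **A congruent unit of weight `k` is congruent to a `p`-th power modulo `(ζ - 1) ^ p`.** -/
theorem exists_weight_pow_congr (h3 : 3 ≤ p) {k : ℕ} (hk0 : 0 < k) (hk : k < p - 1) (u : (𝓞 K)ˣ)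
    {n : ℤ} (hn : (p : 𝓞 K) ∣ (u : 𝓞 K) - (n : 𝓞 K))
    (hu : ∀ d : (ZMod p)ˣ, ∃ w : (𝓞 K)ˣ,
      sigmaU p K d u = u ^ ((d : ZMod p) ^ k).val * w ^ p) :
    ∃ y : 𝓞 K, (FA.Ext.zetaInt p K - 1) ^ p ∣ (u : 𝓞 K) - y ^ p := by
  haveI : NeZero p := ⟨hp.out.ne_zero⟩
  have H := FA.Regular.cycloRing_zetaInt p K h3
  set z := FA.Ext.zetaInt p K with hz
  set t : 𝓞 K := (p : 𝓞 K) * (z - 1) with ht
  have hπt : (z - 1) ^ p ∣ t := by
    rw [ht, ← Nat.sub_add_cancel hp.out.one_le, pow_succ, Nat.sub_add_cancel hp.out.one_le]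
    exact mul_dvd_mul_right H.lam_dvd_prime _
  have htπ : t ∣ (z - 1) ^ p := by
    rw [ht, ← Nat.sub_add_cancel hp.out.one_le, pow_succ, Nat.sub_add_cancel hp.out.one_le]
    exact mul_dvd_mul_right H.assoc.dvd' _
  obtain ⟨c, hc⟩ := hn
  obtain ⟨l, hl⟩ := H.residue c
  set m : ℤ := n + p * l
  have hm : t ∣ (u : 𝓞 K) - (m : 𝓞 K) := by
    obtain ⟨e, he⟩ := hl
    refine ⟨e, ?_⟩
    simp only [m, ht]
    push_cast
    linear_combination hc + (p : 𝓞 K) * he
  -- congruences of integers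
  have hint : ∀ x y : ℤ, t ∣ (x : 𝓞 K) - (y : 𝓞 K) → (x : ZMod (p ^ 2)) = (y : ZMod (p ^ 2)) := by
    intro x y hxy
    rw [← sub_eq_zero, ← Int.cast_sub, ZMod.intCast_zmod_eq_zero_iff_dvd]
    obtain ⟨q, hq⟩ := H.int_dvd (x - y) (by
      push_cast
      exact ((dvd_mul_left _ _).trans (ht ▸ dvd_refl t)).trans hxy)
    have hq' : (p : ℤ) ∣ q := by
      refine H.int_dvd q ?_
      obtain ⟨e, he⟩ := hxy
      refine ⟨e, mul_left_cancel₀ (Nat.cast_ne_zero.2 hp.out.ne_zero : (p : 𝓞 K) ≠ 0) ?_⟩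
      rw [← Int.cast_sub, hq, ht] at he
      push_cast at he
      linear_combination he
    rw [hq, Nat.cast_pow, sq]
    exact mul_dvd_mul_left _ hq'
  obtain ⟨γ, hγ⟩ := IsCyclic.exists_generator (α := (ZMod p)ˣ)
  obtain ⟨w, hw⟩ := hu γ
  set cc := ((γ : ZMod p) ^ k).val with hcc
  obtain ⟨a, ha⟩ := H.residue (w : 𝓞 K)
  have hap : t ∣ (w : 𝓞 K) ^ p - (a : 𝓞 K) ^ p := by
    obtain ⟨e, he⟩ := ha
    obtain ⟨r, hr⟩ := exists_add_pow_prime_eq hp.out (a : 𝓞 K) ((z - 1) * e)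
    rw [show (w : 𝓞 K) = (a : 𝓞 K) + (z - 1) * e by linear_combination he, hr]
    rw [show (a : 𝓞 K) ^ p + ((z - 1) * e) ^ p + (p : 𝓞 K) * (a : 𝓞 K) * ((z - 1) * e) * r -
        (a : 𝓞 K) ^ p = (z - 1) ^ p * e ^ p + t * ((a : 𝓞 K) * e * r) by rw [ht, mul_pow]; ring]
    exact dvd_add (htπ.mul_right _) (dvd_mul_right _ _)
  have hσm : t ∣ (sigmaU p K γ u : 𝓞 K) - (m : 𝓞 K) := by
    obtain ⟨e, he⟩ := hm
    have h := congrArg (FA.Ext.sigma p K γ) he
    rw [map_sub, map_intCast, map_mul, ht, map_mul, map_natCast, map_sub, map_one, hz,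
      FA.Ext.sigma_zetaInt, ← hz] at h
    rw [FA.Ext.sigmaU_coe, h, ht]
    exact (mul_dvd_mul_left _ (sub_one_dvd_pow_sub_one z _)).mul_right _
  have hmod : (m : ZMod (p ^ 2)) = (m : ZMod (p ^ 2)) ^ cc * (a : ZMod (p ^ 2)) ^ p := by
    rw [← Int.cast_pow, ← Int.cast_pow, ← Int.cast_mul]
    refine hint _ _ ?_
    push_cast
    have h1 : t ∣ (u : 𝓞 K) ^ cc * (w : 𝓞 K) ^ p - (m : 𝓞 K) ^ cc * (a : 𝓞 K) ^ p := by
      rw [show (u : 𝓞 K) ^ cc * (w : 𝓞 K) ^ p - (m : 𝓞 K) ^ cc * (a : 𝓞 K) ^ p =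
        ((u : 𝓞 K) ^ cc - (m : 𝓞 K) ^ cc) * (w : 𝓞 K) ^ p +
          (m : 𝓞 K) ^ cc * ((w : 𝓞 K) ^ p - (a : 𝓞 K) ^ p) by ring]
      exact dvd_add ((hm.trans (sub_dvd_pow_sub_pow _ _ cc)).mul_right _) (hap.mul_left _)
    rw [hw, Units.val_mul, Units.val_pow_eq_pow_val, Units.val_pow_eq_pow_val] at hσm
    have := dvd_sub h1 hσm
    rwa [show (u : 𝓞 K) ^ cc * (w : 𝓞 K) ^ p - (m : 𝓞 K) ^ cc * (a : 𝓞 K) ^ p -
      ((u : 𝓞 K) ^ cc * (w : 𝓞 K) ^ p - (m : 𝓞 K)) =
        (m : 𝓞 K) - (m : 𝓞 K) ^ cc * (a : 𝓞 K) ^ p by ring] at this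
  -- `m` is prime to `p`
  have hunit : ∀ (b : ℤ) (v : (𝓞 K)ˣ), z - 1 ∣ (v : 𝓞 K) - (b : 𝓞 K) →
      IsUnit (b : ZMod (p ^ 2)) := fun b v hb => by
    rw [ZMod.coe_int_isUnit_iff_isCoprime]
    push_cast
    refine IsCoprime.pow_left ((Nat.prime_iff_prime_int.1 hp.out).coprime_iff_not_dvd.2 fun h => ?_)
    refine H.lam_not_dvd_unit v ?_
    have h1 : z - 1 ∣ (b : 𝓞 K) := H.lam_dvd_prime_one.trans (by
      simpa using Int.cast_dvd_cast (α := 𝓞 K) _ _ h)
    simpa using dvd_add hb h1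
  have hum : IsUnit (m : ZMod (p ^ 2)) := hunit m u ((dvd_mul_left _ _).trans (ht ▸ hm))
  have hua : IsUnit (a : ZMod (p ^ 2)) := hunit a w ha
  obtain ⟨M, hM⟩ := hum
  obtain ⟨A, hA⟩ := hua
  have hMA : M = M ^ cc * A ^ p := Units.ext (by
    rw [Units.val_mul, Units.val_pow_eq_pow_val, Units.val_pow_eq_pow_val, hM, hA]; exact hmod)
  have hcard : ∀ x : (ZMod (p ^ 2))ˣ, x ^ (p * (p - 1)) = 1 := fun x => by
    rw [show p * (p - 1) = Nat.totient (p ^ 2) by rw [Nat.totient_prime_pow hp.out two_pos]; simp]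
    exact ZMod.pow_totient x
  have hN : (M ^ (p - 1)) ^ cc = M ^ (p - 1) := by
    conv_rhs => rw [hMA, mul_pow, ← pow_mul A, hcard, mul_one]
    rw [← pow_mul, ← pow_mul, mul_comm]
  have h1 : M ^ (p - 1) = 1 := by
    have hp1 : (M ^ (p - 1)) ^ p = 1 := by rw [← pow_mul, mul_comm, hcard]
    rw [← orderOf_eq_one_iff]
    rcases (Nat.dvd_prime hp.out).1 (orderOf_dvd_of_pow_eq_one hp1) with h | h
    · exact h
    · exfalso
      have h2 : (M ^ (p - 1)) ^ cc = (M ^ (p - 1)) ^ 1 := by rw [hN, pow_one]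
      rw [pow_eq_pow_iff_modEq, h, ← ZMod.natCast_eq_natCast_iff, hcc, ZMod.natCast_zmod_val,
        Nat.cast_one] at h2
      have h4 : γ ^ k = 1 := Units.ext (by rw [Units.val_pow_eq_pow_val, Units.val_one]; exact h2)
      have h6 := Nat.le_of_dvd hk0 (orderOf_dvd_of_pow_eq_one h4)
      rw [orderOf_eq_card_of_forall_mem_zpowers hγ, Nat.card_eq_fintype_card,
        ZMod.card_units p] at h6
      omega
  refine ⟨(m : 𝓞 K), ?_⟩
  have h2 : ((m ^ p - m : ℤ) : ZMod (p ^ 2)) = 0 := by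
    push_cast
    have hMp : M ^ p = M := by
      calc M ^ p = M ^ (p - 1 + 1) :=
            congrArg (fun j : ℕ => M ^ j) (Nat.sub_add_cancel hp.out.one_le).symm
        _ = M := (pow_succ M (p - 1)).trans (by rw [h1, one_mul])
    rw [← hM, ← Units.val_pow_eq_pow_val, hMp, sub_self]
  rw [ZMod.intCast_zmod_eq_zero_iff_dvd] at h2
  obtain ⟨e, he⟩ := h2
  have h3 : t ∣ (m : 𝓞 K) ^ p - (m : 𝓞 K) := by
    have := congrArg (Int.cast : ℤ → 𝓞 K) he
    push_cast at this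
    rw [this, ht, sq, mul_assoc]
    exact mul_dvd_mul_left _ (H.lam_dvd_prime_one.mul_right _)
  have := dvd_sub hm h3
  rw [show (u : 𝓞 K) - (m : 𝓞 K) - ((m : 𝓞 K) ^ p - (m : 𝓞 K)) = (u : 𝓞 K) - (m : 𝓞 K) ^ p by
    ring] at this
  exact hπt.trans this

/-- **A congruent unit of even weight gives a class of the reflected weight.** -/
theorem exists_eigen_of_congruent_unit (h3 : 3 ≤ p) {i k : ℕ} (hik : i + k = p) (hk0 : 0 < k)
    (hk : k < p - 1) (u : (𝓞 K)ˣ) {n : ℤ} (hn : (p : 𝓞 K) ∣ (u : 𝓞 K) - (n : 𝓞 K))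
    (hu : ∀ d : (ZMod p)ˣ, ∃ w : (𝓞 K)ˣ,
      sigmaU p K d u = u ^ ((d : ZMod p) ^ k).val * w ^ p)
    (hnp : ∀ v : (𝓞 K)ˣ, v ^ p ≠ u) :
    ∃ x : ClassGroup (𝓞 K), x ≠ 1 ∧ x ^ p = 1 ∧
      ∀ d : (ZMod p)ˣ, sigmaCl p K d x = x ^ ((d : ZMod p) ^ i).val := by
  haveI : NeZero p := ⟨hp.out.ne_zero⟩
  have H := FA.Regular.cycloRing_zetaInt p K h3
  obtain ⟨y, hy⟩ := exists_weight_pow_congr h3 hk0 hk u hn hu
  have hy0 : y ≠ 0 := fun h => H.lam_not_dvd_unit u (by
    rw [h, zero_pow hp.out.ne_zero, sub_zero] at hy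
    exact (dvd_pow_self _ hp.out.ne_zero).trans hy)
  set b : Kˣ := intUnits u with hb
  set Y : Kˣ := intU y hy0
  have hζ : IsPrimitiveRoot ((FA.Ext.zetaInt p K : 𝓞 K) : K) p := zet_spec p K
  have hpow : ∀ v : HeightOneSpectrum (𝓞 K),
      b ∈ powSub v p (p * zExp v (FA.Ext.zetaInt p K)) := by
    intro v
    set z := zExp v (FA.Ext.zetaInt p K) with hz
    rcases Nat.eq_zero_or_pos z with h0 | hpos
    · rw [h0, mul_zero, mem_powSub_zero, hb, ord_intUnits]
      exact dvd_zero _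
    · rw [mem_powSub]
      refine ⟨b / Y ^ p, ?_, Y, div_mul_cancel _ _⟩
      obtain ⟨e, he⟩ := hy
      have hval : v.valuation K ((FA.Ext.zetaInt p K : K) - 1) = WithZero.exp (-(z : ℤ)) := by
        rw [Valuation.map_sub_swap]
        exact valuation_one_sub v p hζ
      have hle : v.valuation K (((u : 𝓞 K) : K) - (y : K) ^ p) ≤
          WithZero.exp (-((p * z : ℕ) : ℤ)) := by
        have h1 := congrArg (fun x : 𝓞 K => (x : K)) he
        simp only [map_sub, map_pow, map_mul, map_one] at h1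
        rw [h1, map_mul, map_pow, hval, ← WithZero.exp_nsmul]
        refine (mul_le_of_le_one_right' (v.valuation_le_one e)).trans (le_of_eq ?_)
        congr 1
        push_cast
        rw [nsmul_eq_mul]
        ring
      have hu1 : v.valuation K ((u : 𝓞 K) : K) = 1 := val_eq_one_of_ord (ord_intUnits u v)
      have hlt : WithZero.exp (-((p * z : ℕ) : ℤ)) < 1 := by
        rw [← WithZero.exp_zero, WithZero.exp_lt_exp]
        have := mul_pos hp.out.pos hpos
        omega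
      have hy1 : v.valuation K ((y : K) ^ p) = 1 := by
        refine FA.Kolyvagin.congr_val ?_ hu1
        rw [Valuation.map_sub_swap]
        exact hle.trans_lt hlt
      refine mem_nearUnits_of_le v (mul_pos hp.out.pos hpos) ?_
      rw [Units.val_div_eq_div_val, Units.val_pow_eq_pow_val,
        show ((Y : Kˣ) : K) = (y : K) from rfl, show ((b : Kˣ) : K) = ((u : 𝓞 K) : K) from rfl,
        div_sub_one (pow_ne_zero _ (RingOfIntegers.coe_ne_zero_iff.mpr hy0)), map_div₀, hy1,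
        div_one]
      exact hle
  set R : Finset Kˣ := {b}
  haveI := isMulCommutative_kummerField p R hζ
  have hunr : ∀ v : HeightOneSpectrum (𝓞 K), ¬ IsRam (KummerField p R) v := fun v =>
    not_isRam_kummerField hζ fun r hr => by rw [Finset.mem_singleton.1 hr]; exact hpow v
  haveI : IsTotallyComplex K := IsCyclotomicExtension.Rat.isTotallyComplex (n := p) K (by omega)
  haveI : IsUnramifiedAtInfinitePlaces K (KummerField p R) :=
    ⟨fun _ => InfinitePlace.isUnramified_iff.mpr (Or.inr (IsTotallyComplex.isComplex _))⟩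
  obtain ⟨H', _, _, _, _, _, -, -, ⟨e, he⟩, hcl⟩ := exists_hilbertClassField (K := K)
  obtain ⟨f⟩ := exists_algHom_hilbertClassField K hcl (E := KummerField p R) hunr
  obtain ⟨β, hβ⟩ := exists_kummerRoot p R (Finset.mem_singleton_self b)
  obtain ⟨φ, hφ, -⟩ := exists_isResChar e (fun v => he v) (zet_spec p K) (b := b) (β := f β)
    (by rw [← map_pow, hβ, AlgHom.commutes])
  refine exists_eigen_of_char φ (hφ.map_sigmaCl hik fun d => ?_)
    (hφ.ne_one (zet_spec p K) fun w hw => ?_)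
  · obtain ⟨w, hw⟩ := hu d
    refine ⟨intUnits w, ?_⟩
    rw [show galU (sigmaK p K d) b = intUnits (sigmaU p K d u) from Units.ext rfl, hw, map_mul,
      map_pow, map_pow]
  · obtain ⟨v, hv⟩ := exists_intUnits_eq (x := w) fun v => by
      have h1 := congrArg (ord v) hw
      rw [hb, ord_intUnits, ord_pow, eq_comm, mul_eq_zero] at h1
      exact h1.resolve_left (Int.natCast_ne_zero.2 hp.out.ne_zero)
    exact hnp v (intUnits_injective (by rw [map_pow, hv]; exact hw.symm))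

end FA.HerbrandRibet
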