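import Fermat.Agent.HerbrandRibet.RealEigen
import Fermat.Agent.HerbrandRibet.WeightIdempotent
import Fermat.Agent.Root.SummaryKolyvaginGras
import Fermat.Agent.ClassField94.EvenWeight

/-!
# The dichotomy from the equality of Gras

For even `2 ≤ k ≤ p - 3` either a class of order `p` of `ℚ(ζ_p)` has weight `k`, or the weight `k`
projection of some cyclotomic unit is no root of unity times a `p`-th power: otherwise the weight
`k` component of the classes of `ℚ(ζ_p)⁺` is trivial and by Gras every unit would be cyclotomic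
there, hence trivial modulo `p`-th powers.

Classical.
-/

set_option autoImplicit false
set_option linter.unusedSectionVars false
set_option linter.style.haveILetI false

noncomputable section

open scoped Classical
open NumberField IsDedekindDomain FA.ArtinRec FA.AmbClass FA.Kolyvagin
open MonoidAlgebra (single)
open FA.Ext (sigmaK sigmaU sigmaCl)

namespace FA.HerbrandRibet

variable (p : ℕ) [hp : Fact p.Prime] (K : Type*) [Field K] [NumberField K]
  [IsCyclotomicExtension {p} ℚ K]

/-- Roots of unity times `p`-th powers. -/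
def rootPow : Subgroup Kˣ :=
  (Units.torsion K).map intUnits ⊔ (powMonoidHom p : Kˣ →* Kˣ).range

/-- The elements modulo roots of unity and `p`-th powers. -/
def RootQuot : Type _ := Kˣ ⧸ rootPow p K

instance : CommGroup (RootQuot p K) := QuotientGroup.Quotient.commGroup (rootPow p K)

/-- The projection. -/
def rootQuotMk : Kˣ →* RootQuot p K := QuotientGroup.mk' (rootPow p K)

/-- The projection of weight `k` modulo roots of unity and `p`-th powers. -/
def wproj (k : ℕ) : Kˣ →* RootQuot p K :=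
  MonoidHom.mk' (fun y => ∏ d : (ZMod p)ˣ,
      rootQuotMk p K (galU (sigmaK p K d⁻¹) y) ^ ((d : ZMod p) ^ k).val)
    fun x y => by
      rw [← Finset.prod_mul_distrib]
      exact Finset.prod_congr rfl fun d _ => by rw [map_mul, map_mul, mul_pow]

variable {p K}

theorem rootPow_quot_pow (t : RootQuot p K) : t ^ p = 1 := by
  obtain ⟨x, rfl⟩ : ∃ x, rootQuotMk p K x = t := QuotientGroup.mk'_surjective _ t
  rw [← map_pow]
  exact (QuotientGroup.eq_one_iff _).2 (Subgroup.mem_sup_right ⟨x, rfl⟩)

theorem rootPow_pow_congr (t : RootQuot p K) {a b : ℕ} (h : (a : ZMod p) = b) :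
    t ^ a = t ^ b :=
  pow_eq_pow_of_modEq ((ZMod.natCast_eq_natCast_iff a b p).1 h) (rootPow_quot_pow t)

theorem wproj_apply (k : ℕ) (y : Kˣ) : wproj p K k y =
    ∏ d : (ZMod p)ˣ, (rootQuotMk p K (galU (sigmaK p K d⁻¹) y)) ^
      ((d : ZMod p) ^ k).val :=
  rfl

theorem wproj_galU (k : ℕ) (e : (ZMod p)ˣ) (y : Kˣ) :
    wproj p K k (galU (sigmaK p K e) y) = wproj p K k y ^ ((e : ZMod p) ^ k).val := by
  haveI : NeZero p := ⟨hp.out.ne_zero⟩
  rw [wproj_apply, wproj_apply, ← Finset.prod_pow]
  refine Fintype.prod_equiv (Equiv.mulLeft e⁻¹) _ _ fun d => ?_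
  rw [Equiv.coe_mulLeft, mul_inv_rev, inv_inv, ← pow_mul,
    show galU (sigmaK p K (d⁻¹ * e)) y = galU (sigmaK p K d⁻¹) (galU (sigmaK p K e) y) from by
      rw [map_mul]; rfl]
  refine rootPow_pow_congr _ ?_
  simp only [Nat.cast_mul, ZMod.natCast_zmod_val, Units.val_mul, mul_pow]
  rw [mul_comm ((((e⁻¹ : (ZMod p)ˣ) : ZMod p)) ^ k), mul_assoc, ← mul_pow, Units.inv_mul, one_pow,
    mul_one]

theorem wproj_intUnits (k : ℕ) (u : (𝓞 K)ˣ) :
    wproj p K k (intUnits u) =
      rootQuotMk p K (intUnits (FA.Regular.unitProj p K k u)) := by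
  rw [wproj_apply, FA.Regular.unitProj_apply, map_prod, map_prod]
  refine Finset.prod_congr rfl fun d _ => ?_
  rw [map_pow, map_pow]
  rfl

theorem mem_rootTimesPow_of_quot {U : (𝓞 K)ˣ}
    (h : rootQuotMk p K (intUnits U) = 1) : U ∈ FA.Regular.rootTimesPow p K := by
  obtain ⟨_, ⟨t, ht, rfl⟩, _, ⟨y, rfl⟩, hty⟩ :=
    Subgroup.mem_sup.1 ((QuotientGroup.eq_one_iff _).1 h)
  change intUnits t * y ^ p = intUnits U at hty
  obtain ⟨w, hw⟩ := exists_intUnits_eq (x := y) fun v => by
    have h1 := congrArg (ord v) hty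
    rw [ord_mul, ord_pow, ord_intUnits, ord_intUnits, zero_add, mul_eq_zero] at h1
    exact h1.resolve_left (Int.natCast_ne_zero.2 hp.out.ne_zero)
  exact (FA.Regular.mem_rootTimesPow p K).2
    ⟨t, ht, w, intUnits_injective (by rw [map_mul, map_pow, hw, hty])⟩

theorem quot_eq_one_of_rootTimesPow {U : (𝓞 K)ˣ} (h : U ∈ FA.Regular.rootTimesPow p K) :
    rootQuotMk p K (intUnits U) = 1 := by
  obtain ⟨t, ht, w, rfl⟩ := (FA.Regular.mem_rootTimesPow p K).1 h
  rw [map_mul intUnits, map_pow intUnits]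
  exact (QuotientGroup.eq_one_iff _).2
    (Subgroup.mul_mem_sup (Subgroup.mem_map_of_mem _ ht) ⟨_, rfl⟩)

/-- `cycU a * (1 - ζ) = σ_a (1 - ζ)`. -/
theorem cycU_mul_lamU {a : ℕ} (ha : (a : ZMod p) ≠ 0) :
    galU (sigmaK p K (Units.mk0 (a : ZMod p) ha)) (lamU p K) =
      intUnits (FA.Regular.cycU p K ha) * lamU p K := by
  haveI : NeZero p := ⟨hp.out.ne_zero⟩
  refine Units.ext ?_
  show sigmaK p K _ (1 - IsCyclotomicExtension.zeta p ℚ K) =
    ((FA.Regular.cycU p K ha : 𝓞 K) : K) * (1 - IsCyclotomicExtension.zeta p ℚ K)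
  rw [← FA.Ext.zetaInt_coe, map_sub, map_one, ← FA.Ext.sigma_coe, FA.Ext.sigma_zetaInt]
  have h := mul_neg_geom_sum (FA.Ext.zetaInt p K) a
  have hpow : FA.Ext.zetaInt p K ^ ((Units.mk0 (a : ZMod p) ha : (ZMod p)ˣ) : ZMod p).val =
      FA.Ext.zetaInt p K ^ a := by
    rw [Units.val_mk0, ZMod.val_natCast, ← pow_eq_pow_mod a
      (FA.Ext.zetaInt_spec p K).pow_eq_one]
  rw [hpow, FA.Regular.cycU, IsUnit.unit_spec, mul_comm]
  exact_mod_cast (congrArg (fun t : 𝓞 K => (t : K)) h).symm

variable (p K)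

/-- A lift of weight `k` to the Galois group of the real subfield. -/
theorem exists_real_weight [IsCMField K] [IsGalois ℚ (maximalRealSubfield K)] {m : ℕ} (hm : 0 < m)
    {k : ℕ} (hev : Even k) {G : Type*} [CommGroup G]
    (τ : G →* (maximalRealSubfield K ≃ₐ[ℚ] maximalRealSubfield K)) :
    (∀ g, ∃ d, restrictReal p K d = τ g) ∧ ∃ χ : G →* ZMod (p ^ m),
      ∀ g d, restrictReal p K d = τ g →
        ZMod.castHom (dvd_pow_self p hm.ne') (ZMod p) (χ g) = (d : ZMod p) ^ k := by
  haveI : IsGalois ℚ K := IsCyclotomicExtension.isGalois {p} ℚ K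
  have hsurj : Function.Surjective (restrictReal p K) :=
    (AlgEquiv.restrictNormalHom_surjective K).comp
      (IsCyclotomicExtension.Rat.galEquivZMod p K).symm.surjective
  refine ⟨fun g => hsurj _, ?_⟩
  set T : (ZMod p)ˣ →* ZMod (p ^ m) := (powMonoidHom k).comp (teich hm) with hT
  have hkerT : ∀ e, restrictReal p K e = 1 → T e = 1 := by
    intro e he
    have hfix : ∀ y : maximalRealSubfield K,
        sigmaK p K e (algebraMap (maximalRealSubfield K) K y) =
          algebraMap (maximalRealSubfield K) K y := fun y => by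
      rw [← algebraMap_restrictReal, he, AlgEquiv.one_apply]
    set s : K ≃ₐ[maximalRealSubfield K] K :=
      AlgEquiv.ofRingEquiv (f := (sigmaK p K e).toRingEquiv) hfix
    have huniv : (Finset.univ : Finset (K ≃ₐ[maximalRealSubfield K] K)) =
        {1, IsCMField.complexConj K} := by
      refine (Finset.eq_univ_of_card _ ?_).symm
      rw [Finset.card_pair (IsCMField.complexConj_ne_one K).symm, ← Nat.card_eq_fintype_card,
        IsGalois.card_aut_eq_finrank,
        Algebra.IsQuadraticExtension.finrank_eq_two (maximalRealSubfield K) K]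
    have hs := Finset.mem_univ s
    rw [huniv, Finset.mem_insert, Finset.mem_singleton] at hs
    have hinj : Function.Injective (sigmaK p K) :=
      (IsCyclotomicExtension.Rat.galEquivZMod p K).symm.injective
    have he' : e = 1 ∨ e = -1 := by
      rcases hs with h | h
      · refine Or.inl (hinj (AlgEquiv.ext fun x => ?_))
        rw [map_one]
        exact AlgEquiv.congr_fun h x
      · refine Or.inr (hinj (AlgEquiv.ext fun x => ?_))
        rw [FA.Regular.sigmaK_neg_one_eq]
        exact AlgEquiv.congr_fun h x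
    rcases he' with rfl | rfl
    · exact map_one T
    · rw [hT, MonoidHom.comp_apply, powMonoidHom_apply, ← map_pow,
        show (-1 : (ZMod p)ˣ) ^ k = 1 from hev.neg_one_pow, map_one]
  have hwell : ∀ d d', restrictReal p K d = restrictReal p K d' → T d = T d' := fun d d' h => by
    conv_rhs => rw [← mul_inv_cancel_left d d']
    rw [map_mul, hkerT (d⁻¹ * d') (by rw [map_mul, map_inv, h, inv_mul_cancel]), mul_one]
  choose sec hsec using fun g => hsurj (τ g)
  refine ⟨⟨⟨fun g => T (sec g), ?_⟩, fun g g' => ?_⟩, fun g d hd => ?_⟩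
  · rw [hkerT _ (by rw [hsec, map_one])]
  · show T (sec (g * g')) = T (sec g) * T (sec g')
    rw [← map_mul]
    exact hwell _ _ (by rw [hsec, map_mul τ, map_mul, hsec, hsec])
  · show ZMod.castHom _ (ZMod p) (T (sec g)) = _
    rw [hwell (sec g) d (by rw [hsec, hd]), hT, MonoidHom.comp_apply, powMonoidHom_apply,
      map_pow, castHom_teich]

/-- **The dichotomy.** -/
theorem exists_eigen_or_cycU_good (h5 : 5 ≤ p) {k : ℕ} (hev : Even k) (hk : 2 ≤ k)
    (hkp : k ≤ p - 3) :
    (∃ y : ClassGroup (𝓞 K), y ≠ 1 ∧ y ^ p = 1 ∧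
        ∀ d : (ZMod p)ˣ, sigmaCl p K d y = y ^ ((d : ZMod p) ^ k).val) ∨
      ∃ (a : ℕ) (ha : (a : ZMod p) ≠ 0),
        FA.Regular.unitProj p K k (FA.Regular.cycU p K ha) ∉ FA.Regular.rootTimesPow p K := by
  by_contra hno
  obtain ⟨hcls, hcyc⟩ := not_or.1 hno
  push Not at hcyc
  haveI : NeZero p := ⟨hp.out.ne_zero⟩
  haveI : IsCMField K := IsCyclotomicExtension.Rat.isCMField K (S := {p}) ⟨p, rfl, by omega⟩
  haveI := isAbelianGalois_real p K
  obtain ⟨G, _, _, τ, hτ⟩ := FA.Summary.exists_galois_group_real p K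
  set v := padicValNat p (classNumber (maximalRealSubfield K)) with hv
  set m := 2 * v + 1 with hmdef
  have hm : 0 < m := by omega
  haveI : NeZero (p ^ m) := ⟨pow_ne_zero _ hp.out.ne_zero⟩
  haveI : Fact (1 < p ^ m) := ⟨Nat.one_lt_pow hm.ne' hp.out.one_lt⟩
  obtain ⟨hsec, χ, hχ⟩ := exists_real_weight p K hm hev τ
  set π := ZMod.castHom (dvd_pow_self p hm.ne') (ZMod p) with hπ
  have hval : ∀ x : ZMod (p ^ m), ((x.val : ℕ) : ZMod p) = π x := fun x => by
    conv_rhs => rw [← ZMod.natCast_zmod_val x]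
    rw [map_natCast]
  have hcardG : ¬ p ∣ Fintype.card G := fun hd => by
    have h1 : Fintype.card G ≤ p - 1 := by
      rw [← ZMod.card_units p]
      refine Fintype.card_le_of_surjective
        (fun d => (Equiv.ofBijective τ hτ).symm (restrictReal p K d)) fun g => ?_
      obtain ⟨d, hd'⟩ := hsec g
      exact ⟨d, by
        show (Equiv.ofBijective τ hτ).symm _ = g
        rw [hd']; exact (Equiv.ofBijective τ hτ).symm_apply_apply g⟩
    have := Nat.le_of_dvd Fintype.card_pos hd
    omega
  obtain ⟨e, he, heval, hmul⟩ := exists_charIdem hm hcardG χ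
  -- the component of the classes is trivial
  have hA : ∀ c : Aq (maximalRealSubfield K) (p ^ v),
      act (phiA τ) (pow_dvd_pow p (show v ≤ m by omega)) e c = 0 := by
    intro c
    by_contra hne
    obtain ⟨x, hx1, hxp, hxg⟩ := exists_eigen_order_p τ hv hne (fun g => (χ g).val) fun g => by
      rw [← act_of (hm := pow_dvd_pow p (show v ≤ m by omega)), ← act_mul, hmul, charEval_single,
        one_mul, act_mul, act_single, map_one]
      rfl
    obtain ⟨y, hy⟩ := exists_eigen_of_real_eigen K (by omega : p ≠ 2) hx1 hxp (k := k) fun d => by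
      obtain ⟨g, hg⟩ := hτ.2 (restrictReal p K d)
      rw [← hg, hxg g]
      exact pow_eq_pow_of_modEq ((ZMod.natCast_eq_natCast_iff _ _ p).1 (by
        rw [hval, hχ g d hg.symm, ZMod.natCast_zmod_val])) hxp
    exact hcls ⟨y, hy⟩
  have hlp : ¬ p ∣ (p - 1) / 2 := fun hd => by
    have := Nat.le_of_dvd (by omega) hd
    omega
  have hgras := (FA.Summary.gras_component_trivial τ h5 (by omega : p ≠ 2) hlp
    (show 2 * padicValNat p (classNumber (maximalRealSubfield K)) < m by omega) hτ he).1 hA
  -- weight `k` of the elements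
  set Ψ0 : Additive (maximalRealSubfield K)ˣ →+ Additive (RootQuot p K) :=
    ((wproj p K k).comp (Units.map (algebraMap (maximalRealSubfield K) K :
      (maximalRealSubfield K) →* K))).toAdditive
  have hkill : ∀ t : Additive (RootQuot p K), p • t = 0 := fun t =>
    Additive.toMul.injective (by rw [toMul_nsmul]; exact rootPow_quot_pow _)
  have hcongr : ∀ (t : Additive (RootQuot p K)) {a b : ℕ}, (a : ZMod p) = b → a • t = b • t :=
    fun t a b h => Additive.toMul.injective (by
      rw [toMul_nsmul, toMul_nsmul]; exact rootPow_pow_congr _ h)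
  have hker : (nsmulAddMonoidHom (α := Additive (maximalRealSubfield K)ˣ) (p ^ m)).range ≤
      Ψ0.ker := by
    rintro _ ⟨t, rfl⟩
    rw [AddMonoidHom.mem_ker, nsmulAddMonoidHom_apply]
    obtain ⟨j, hj⟩ := dvd_pow_self p hm.ne'
    rw [map_nsmul, hj, mul_nsmul, hkill, nsmul_zero]
  set Ψ : Vq (maximalRealSubfield K) (p ^ m) →+ Additive (RootQuot p K) :=
    QuotientAddGroup.lift _ Ψ0 hker with hΨdef
  have hΨ : ∀ x : (maximalRealSubfield K)ˣ, Ψ (vmk (p ^ m) x) =
      Additive.ofMul (wproj p K k (Units.map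
        (algebraMap (maximalRealSubfield K) K : maximalRealSubfield K →* K) x)) := fun x => rfl
  have hΨphi : ∀ g z, Ψ (phiq (phiV τ) (p ^ m) g z) = (χ g).val • Ψ z := by
    intro g z
    obtain ⟨x, rfl⟩ := vmk_surjective (p ^ m) z
    obtain ⟨d, hd⟩ := hsec g
    rw [phiq_vmk, hΨ, hΨ, show Units.map
        (algebraMap (maximalRealSubfield K) K : maximalRealSubfield K →* K) (galU (τ g) x) =
      galU (sigmaK p K d) (Units.map
        (algebraMap (maximalRealSubfield K) K : maximalRealSubfield K →* K) x) from Units.ext (by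
        show algebraMap (maximalRealSubfield K) K (τ g (x : maximalRealSubfield K)) =
          sigmaK p K d (algebraMap (maximalRealSubfield K) K (x : maximalRealSubfield K))
        rw [← hd, algebraMap_restrictReal]), wproj_galU, ofMul_pow]
    exact hcongr _ (by rw [hval, hχ g d hd, ZMod.natCast_zmod_val])
  have hΨact : ∀ a z, Ψ (act (phiV τ) dvd_rfl a z) = (charEval χ a).val • Ψ z := by
    intro a z
    induction a using MonoidAlgebra.induction_linear with
    | zero => rw [act_zero, map_zero, map_zero, ZMod.val_zero, zero_nsmul]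
    | add a b ha hb =>
      rw [act_add, map_add, ha, hb, ← add_nsmul]
      refine hcongr _ ?_
      rw [Nat.cast_add, hval, hval, hval, map_add, map_add]
    | single g c =>
      rw [act_single, map_nsmul, hΨphi, ← mul_nsmul', charEval_single]
      refine hcongr _ ?_
      rw [Nat.cast_mul, hval, hval, hval, map_mul]
  -- `1 - ζ` has trivial weight `k`
  have hconj : ∀ y : Kˣ, wproj p K k (galU (sigmaK p K (-1)) y) = wproj p K k y := fun y => by
    rw [wproj_galU, Units.val_neg, Units.val_one, hev.neg_one_pow, ZMod.val_one, pow_one]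
  have hnorm : ∀ y : Kˣ, Units.map
      (algebraMap (maximalRealSubfield K) K : maximalRealSubfield K →* K) (normU K y) =
        y * galU (sigmaK p K (-1)) y := fun y => Units.ext (by
    show algebraMap (maximalRealSubfield K) K (Algebra.norm (maximalRealSubfield K) (y : K)) =
      (y : K) * sigmaK p K (-1) (y : K)
    rw [algebraMap_norm_eq, FA.Regular.sigmaK_neg_one_eq])
  have hlam : wproj p K k (lamU p K) = 1 := by
    obtain ⟨γ, hγ⟩ := IsCyclic.exists_generator (α := (ZMod p)ˣ)
    set a := (γ : ZMod p).val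
    have ha : (a : ZMod p) ≠ 0 := by rw [ZMod.natCast_zmod_val]; exact γ.ne_zero
    have h1 := congrArg (wproj p K k) (cycU_mul_lamU (K := K) ha)
    rw [wproj_galU, map_mul, wproj_intUnits, quot_eq_one_of_rootTimesPow (hcyc a ha), one_mul,
      Units.val_mk0, ZMod.natCast_zmod_val] at h1
    rcases (Nat.dvd_prime hp.out).1 (orderOf_dvd_of_pow_eq_one
      (rootPow_quot_pow (wproj p K k (lamU p K)))) with h | h
    · exact orderOf_eq_one_iff.1 h
    · exfalso
      have h2 := h1.trans (pow_one _).symm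
      rw [pow_eq_pow_iff_modEq, h, ← ZMod.natCast_eq_natCast_iff, ZMod.natCast_zmod_val,
        Nat.cast_one, ← Units.val_pow_eq_pow_val, Units.val_eq_one] at h2
      have h6 := Nat.le_of_dvd (by omega) (orderOf_dvd_of_pow_eq_one h2)
      rw [orderOf_eq_card_of_forall_mem_zpowers hγ, Nat.card_eq_fintype_card,
        ZMod.card_units p] at h6
      omega
  have hz : Ψ (vmk (p ^ m) (realCycGen p K)) = 0 := by
    rw [hΨ, show realCycGen p K = normU K (lamU p K) from rfl, hnorm, map_mul, hconj, hlam,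
      mul_one]
    rfl
  -- a unit of weight `k`
  obtain ⟨u, hu⟩ := FA.ClassField94.exists_unitProj_not_mem p K h5 hev hk hkp
  refine hu (mem_rootTimesPow_of_quot ?_)
  rw [← wproj_intUnits]
  set x := normU K (intUnits u)
  have hx : x ∈ pUnits (maximalRealSubfield K) p := fun w _ => by
    rw [show x = intUnits (Units.map (RingOfIntegers.norm (maximalRealSubfield K) :
      𝓞 K →* 𝓞 (maximalRealSubfield K)) u) from Units.ext rfl,
      ord_intUnits]
  obtain ⟨w, ⟨a, rfl⟩, hw⟩ : act (phiV τ) dvd_rfl e (vmk (p ^ m) x) ∈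
      (galSpan τ (realCycGen p K)).map
        (act (phiV τ) dvd_rfl e :
          Vq (maximalRealSubfield K) (p ^ m) →+ Vq (maximalRealSubfield K) (p ^ m)) := by
    rw [hgras]
    exact ⟨_, mem_pUnitsMod_iff.2 ⟨x, hx, rfl⟩, rfl⟩
  have h3 : Ψ (orbHom (phiV τ) dvd_rfl 1 (vmk (p ^ m) (realCycGen p K)) a) = 0 := by
    refine ((congrArg Ψ (orbHom_apply _ _ _ _ _)).trans (hΨact _ _)).trans ?_
    rw [hz, nsmul_zero]
  have h4 : Ψ (vmk (p ^ m) x) = 0 := by
    refine Eq.trans ?_ ((congrArg Ψ hw).symm.trans ((hΨact e _).trans (by rw [h3, nsmul_zero])))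
    exact ((hΨact e _).trans (by rw [heval, ZMod.val_one, one_nsmul])).symm
  rw [hΨ, hnorm, map_mul, hconj] at h4
  have h2 : wproj p K k (intUnits u) ^ 2 = 1 := by
    rw [sq]; exact congrArg Additive.toMul h4
  rw [← orderOf_eq_one_iff, ← Nat.dvd_one,
    ← ((Nat.coprime_primes hp.out Nat.prime_two).2 (by omega)).gcd_eq_one]
  exact Nat.dvd_gcd (orderOf_dvd_of_pow_eq_one (rootPow_quot_pow _))
    (orderOf_dvd_of_pow_eq_one h2)

end FA.HerbrandRibet
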