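import Fermat.Agent.HerbrandRibet.GrasBridge
import Fermat.Agent.HerbrandRibet.Reflection
import Fermat.Agent.HerbrandRibet.CongruentUnit
import Fermat.Agent.Root.SummaryKummerUnramified

/-!
# The converse of Herbrand's theorem

If `p` divides the numerator of `B_k`, `k` even, then some class of order `p` of `ℚ(ζ_p)` has
weight `p - k`: by reflection if a class has weight `k`, and otherwise by the congruent unit of
weight `k` given by the equality of Gras.

Classical; no modular forms.
-/

set_option autoImplicit false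
set_option linter.unusedSectionVars false

noncomputable section

open NumberField
open FA.Ext (sigmaCl)

namespace FA.HerbrandRibet

variable {p : ℕ} [Fact p.Prime] {K : Type*} [Field K] [NumberField K]
  [IsCyclotomicExtension {p} ℚ K]

/-- **Ribet's theorem**, classically. -/
theorem exists_eigen_of_dvd_bernoulli (h5 : 5 ≤ p) {i k : ℕ} (hik : i + k = p) (hev : Even k)
    (hk : 2 ≤ k) (hkp : k ≤ p - 3) (hB : (p : ℤ) ∣ (bernoulli k).num) :
    ∃ x : ClassGroup (𝓞 K), x ≠ 1 ∧ x ^ p = 1 ∧
      ∀ d : (ZMod p)ˣ, sigmaCl p K d x = x ^ ((d : ZMod p) ^ i).val := by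
  have hp : p.Prime := Fact.out
  have hpo := hp.eq_two_or_odd
  rcases exists_eigen_or_cycU_good p K h5 hev hk hkp with ⟨y, hy1, hyp, hy⟩ | ⟨a, ha, hgood⟩
  · obtain ⟨ψ, hne, hψ⟩ := FA.Ext.exists_weight_char_of_eigen p K k hyp hy1 hy
    have hk2 := Nat.even_iff.1 hev
    exact exists_eigen_of_reflected_char h5 (Nat.odd_iff.2 (by omega)) (by omega) (by omega) hik ψ
      (weight_sigmaCl hψ) hne
  · set u := FA.Regular.unitProj p K k (FA.Regular.cycU p K ha) with hu
    obtain ⟨n, hn⟩ := FA.ClassField94.exists_congr_int p K (by omega) u fun j hj => by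
      rcases eq_or_ne (j + 1) k with hjk | hjk
      · obtain ⟨t, rfl⟩ : ∃ t, j = t + 1 := ⟨j - 1, by omega⟩
        subst hjk
        rw [hu, FA.Regular.logDer_unitProj p K hj,
          FA.Regular.logDer_cycU p K ha (show t + 4 ≤ p by omega), ← Nat.cast_sum,
          (ZMod.natCast_eq_zero_iff (∑ r ∈ Finset.range p, r ^ (t + 1) * (a * r / p)) p).mpr
            (FA.Summary.dvd_voronoi_of_dvd_bernoulli h5 hk hkp hev ha hB), mul_zero, neg_zero]
      · exact FA.Regular.logDer_eq_zero_of_eigen p K (by omega) hj hjk fun d =>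
          FA.Regular.sigmaU_unitProj p K k d _
    exact exists_eigen_of_congruent_unit (by omega) hik (by omega) (by omega) u hn
      (fun d => FA.Regular.sigmaU_unitProj p K k d _)
      fun v hv => hgood (hv ▸ Subgroup.mem_sup_right ⟨v, rfl⟩)

end FA.HerbrandRibet
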