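import Fermat.Agent.HerbrandRibet.Main
import Fermat.Agent.Regular.EichlerFirstCase

/-!
# The index of irregularity

The classes of the weights `p - k`, `k` an irregular index, are independent, so `p` to the index of
irregularity divides the class number of `ℚ(ζ_p)`.

Classical.
-/

set_option autoImplicit false
set_option linter.unusedSectionVars false

noncomputable section

open NumberField
open scoped Classical
open FA.Ext (sigmaCl weightProj)

namespace FA.HerbrandRibet

variable (p : ℕ) [hp : Fact p.Prime] (K : Type*) [Field K] [NumberField K]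
  [IsCyclotomicExtension {p} ℚ K]

variable {p K} in
/-- The projection of weight `i` of an eigen class of weight `j`. -/
theorem weightProj_of_eigen {i j : ℕ} (hi : i < p - 1) (hj : j < p - 1) {x : ClassGroup (𝓞 K)}
    (hx : x ^ p = 1) (heig : ∀ d : (ZMod p)ˣ, sigmaCl p K d x = x ^ ((d : ZMod p) ^ j).val) :
    weightProj p K i x = if i = j then x⁻¹ else 1 := by
  have : NeZero p := ⟨hp.out.ne_zero⟩
  have h1 : weightProj p K i x = x ^ ∑ d : (ZMod p)ˣ,
      ((d : ZMod p) ^ j).val * (((d⁻¹ : (ZMod p)ˣ) : ZMod p) ^ i).val := by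
    simp only [weightProj, MonoidHom.coe_mk, OneHom.coe_mk, heig, ← pow_mul,
      Finset.prod_pow_eq_pow_sum]
  rw [h1]
  split_ifs with h
  · subst h
    refine eq_inv_of_mul_eq_one_left ?_
    rw [← pow_succ]
    refine (pow_eq_pow_of_modEq ((ZMod.natCast_eq_natCast_iff _ _ p).1 ?_) hx).trans (pow_zero x)
    rw [Nat.cast_succ, Nat.cast_sum]
    simp only [Nat.cast_mul, ZMod.natCast_zmod_val, ← mul_pow, Units.mul_inv, one_pow,
      Finset.sum_const, Finset.card_univ, ZMod.card_units p, nsmul_eq_mul, mul_one, Nat.cast_zero]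
    rw [← Nat.cast_succ, Nat.succ_eq_add_one, Nat.sub_add_cancel hp.out.one_le, ZMod.natCast_self]
  · refine (pow_eq_pow_of_modEq ((ZMod.natCast_eq_natCast_iff _ _ p).1 ?_) hx).trans (pow_zero x)
    rw [Nat.cast_sum, Nat.cast_zero]
    simp only [Nat.cast_mul, ZMod.natCast_zmod_val]
    obtain ⟨γ, hγ⟩ := IsCyclic.exists_generator (α := (ZMod p)ˣ)
    set c := (γ : ZMod p) ^ j * (((γ⁻¹ : (ZMod p)ˣ) : ZMod p)) ^ i
    have hc : c ≠ 1 := fun hc => h (by
      have h2 : γ ^ j = γ ^ i := by
        refine mul_inv_eq_one.1 (Units.ext ?_)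
        rw [Units.val_mul, ← inv_pow, Units.val_pow_eq_pow_val, Units.val_pow_eq_pow_val,
          Units.val_one]
        exact hc
      rw [pow_eq_pow_iff_modEq, orderOf_eq_card_of_forall_mem_zpowers hγ,
        Nat.card_eq_fintype_card, ZMod.card_units p, Nat.modEq_iff_dvd] at h2
      have := Int.eq_zero_of_abs_lt_dvd h2 (abs_lt.2 ⟨by omega, by omega⟩)
      omega)
    set S := ∑ d : (ZMod p)ˣ, (d : ZMod p) ^ j * (((d⁻¹ : (ZMod p)ˣ) : ZMod p)) ^ i
    have hS : S = c * S := by
      rw [Finset.mul_sum]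
      refine (Fintype.sum_equiv (Equiv.mulLeft γ) _ _ fun d => ?_).symm
      simp only [c, Equiv.coe_mulLeft, Units.val_mul, mul_inv_rev, mul_pow]
      ring
    have h3 : (c - 1) * S = 0 := by rw [sub_mul, one_mul, ← hS, sub_self]
    exact (mul_eq_zero.1 h3).resolve_left (sub_ne_zero.2 hc)

/-- **`p` to the index of irregularity divides the class number.** -/
theorem pow_irregularIndexCount_dvd (h5 : 5 ≤ p) :
    p ^ FA.Regular.irregularIndexCount p ∣ classNumber K := by
  have : NeZero p := ⟨hp.out.ne_zero⟩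
  set T := (Finset.Icc 2 (p - 3)).filter fun k => Even k ∧ (p : ℤ) ∣ (_root_.bernoulli k).num
    with hT
  have hk : ∀ k : T, 2 ≤ k.1 ∧ k.1 ≤ p - 3 ∧ Even k.1 ∧
      (p : ℤ) ∣ (_root_.bernoulli k.1).num := fun k => by
    obtain ⟨h1, h2⟩ := Finset.mem_filter.1 k.2
    rw [Finset.mem_Icc] at h1
    exact ⟨h1.1, h1.2, h2⟩
  choose x hx1 hxp hxe using fun k : T => exists_eigen_of_dvd_bernoulli (K := K) h5
    (i := p - k.1) (k := k.1) (by have := hk k; omega) (hk k).2.2.1 (hk k).1 (hk k).2.1 (hk k).2.2.2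
  set Φ : (T → ZMod p) →+ Additive (ClassGroup (𝓞 K)) :=
    ∑ k : T, (ZMod.lift p ⟨zmultiplesHom _ (Additive.ofMul (x k)), by
      rw [zmultiplesHom_apply, natCast_zsmul, ← ofMul_pow, hxp k, ofMul_one]⟩).comp
        (Pi.evalAddMonoidHom _ k) with hΦ
  have hval : ∀ a, Φ a = Additive.ofMul (∏ k : T, x k ^ (a k).val) := fun a => by
    rw [hΦ, AddMonoidHom.finsetSum_apply, ofMul_prod]
    refine Finset.sum_congr rfl fun k _ => ?_
    rw [AddMonoidHom.comp_apply, Pi.evalAddMonoidHom_apply]
    have e : (((a k).val : ℤ) : ZMod p) = a k := by rw [Int.cast_natCast, ZMod.natCast_zmod_val]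
    conv_lhs => rw [← e, ZMod.lift_coe]
    rw [zmultiplesHom_apply, natCast_zsmul, ofMul_pow]
  have hinj : Function.Injective Φ := by
    rw [injective_iff_map_eq_zero]
    intro a ha
    rw [hval] at ha
    have h := congrArg Additive.toMul ha
    rw [toMul_ofMul, toMul_zero] at h
    funext k₀
    have h' := congrArg (weightProj p K (p - k₀.1)) h
    rw [map_prod, map_one, Fintype.prod_eq_single k₀ fun k hne => ?_, map_pow,
      weightProj_of_eigen (by have := hk k₀; omega) (by have := hk k₀; omega) (hxp k₀) (hxe k₀),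
      if_pos rfl, inv_pow, inv_eq_one] at h'
    · have hord : orderOf (x k₀) = p := orderOf_eq_prime (hxp k₀) (hx1 k₀)
      have := Nat.eq_zero_of_dvd_of_lt (hord ▸ orderOf_dvd_of_pow_eq_one h') (ZMod.val_lt _)
      exact (ZMod.val_eq_zero _).1 this
    · rw [map_pow,
        weightProj_of_eigen (by have := hk k₀; omega) (by have := hk k; omega) (hxp k) (hxe k),
        if_neg (fun he => hne (Subtype.ext (by have := hk k; have := hk k₀; omega))), one_pow]
  have h := AddSubgroup.card_dvd_of_injective Φ hinj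
  rwa [Nat.card_fun, Nat.card_zmod, Nat.card_eq_fintype_card, Fintype.card_coe,
    Nat.card_congr Additive.toMul, Nat.card_eq_fintype_card] at h

end FA.HerbrandRibet
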